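/-
Fermat/Agent/AV/Upb43/DegVal.lean  (helper43)

Programme AV (S26/S27), brick UPB: the "degree in the `i`-th variable" valuation on the field of
rational functions `K(t_1, …, t_N)` (`= ` order of pole along `t_i = ∞`), and bounds for powers of
matrices.
-/
import Mathlib

set_option autoImplicit false

open MvPolynomial
open scoped WithZero Classical

namespace Fermat.Agent.AV.Upb43

variable {σ : Type*} {K : Type*} [Field K]

/-- The valuation `p ↦ exp (deg_{t_i} p)` on the polynomial ring. -/
noncomputable def degValPoly (i : σ) : Valuation (MvPolynomial σ K) ℤᵐ⁰ where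
  toFun p := if p = 0 then 0 else WithZero.exp (degreeOf i p : ℤ)
  map_zero' := by simp
  map_one' := by simp
  map_mul' p q := by
    by_cases hp : p = 0
    · simp [hp]
    by_cases hq : q = 0
    · simp [hq]
    simp only [hp, hq, mul_ne_zero hp hq, if_false]
    rw [degreeOf_mul_eq hp hq, Nat.cast_add, WithZero.exp_add]
  map_add_le_max' p q := by
    by_cases hpq : p + q = 0
    · simp [hpq]
    by_cases hp : p = 0
    · simp [hp]
    by_cases hq : q = 0
    · simp [hq]
    simp only [hpq, hp, hq, if_false, le_max_iff, WithZero.exp_le_exp, Nat.cast_le]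
    have := degreeOf_add_le i p q
    rcases le_max_iff.mp this with h | h
    · exact Or.inl h
    · exact Or.inr h

theorem degValPoly_apply_of_ne_zero (i : σ) {p : MvPolynomial σ K} (hp : p ≠ 0) :
    degValPoly i p = WithZero.exp (degreeOf i p : ℤ) := by
  change (if p = 0 then 0 else WithZero.exp (degreeOf i p : ℤ)) = _
  rw [if_neg hp]

theorem degValPoly_eq_zero_iff (i : σ) (p : MvPolynomial σ K) : degValPoly i p = 0 ↔ p = 0 := by
  change (if p = 0 then 0 else WithZero.exp (degreeOf i p : ℤ)) = 0 ↔ _
  by_cases hp : p = 0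
  · simp [hp]
  · simp [hp]

theorem degreeOf_le_of_degValPoly_le (i : σ) (p : MvPolynomial σ K) (n : ℕ)
    (h : degValPoly i p ≤ WithZero.exp (n : ℤ)) : degreeOf i p ≤ n := by
  by_cases hp : p = 0
  · simp [hp]
  rw [degValPoly_apply_of_ne_zero i hp, WithZero.exp_le_exp] at h
  exact_mod_cast h

section Frac

variable (K) (E : Type*) [Field E] [Algebra (MvPolynomial σ K) E]
  [IsFractionRing (MvPolynomial σ K) E]

/-- The valuation "degree in `t_i`" on the fraction field `E = K(t)`. -/
noncomputable def degVal (i : σ) : Valuation E ℤᵐ⁰ :=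
  (degValPoly (K := K) i).extendToLocalization
    (S := nonZeroDivisors (MvPolynomial σ K))
    (fun p hp => by
      change p ∉ (degValPoly (K := K) i).supp
      rw [Valuation.mem_supp_iff, degValPoly_eq_zero_iff]
      exact nonZeroDivisors.ne_zero hp) E

@[simp]
theorem degVal_algebraMap (i : σ) (p : MvPolynomial σ K) :
    degVal K E i (algebraMap (MvPolynomial σ K) E p) = degValPoly i p :=
  Valuation.extendToLocalization_apply_map_apply _ _ _ _

theorem degreeOf_le_of_degVal_le (i : σ) (p : MvPolynomial σ K) (n : ℕ)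
    (h : degVal K E i (algebraMap (MvPolynomial σ K) E p) ≤ WithZero.exp (n : ℤ)) :
    degreeOf i p ≤ n := by
  rw [degVal_algebraMap] at h
  exact degreeOf_le_of_degValPoly_le i p n h

end Frac

/-- Every element of `ℤᵐ⁰` is bounded by `exp a` for a natural number `a`. -/
theorem exists_nat_le_exp (x : ℤᵐ⁰) : ∃ a : ℕ, x ≤ WithZero.exp (a : ℤ) := by
  by_cases hx : x = 0
  · exact ⟨0, by simp [hx]⟩
  refine ⟨(WithZero.log x).toNat, ?_⟩
  rw [← WithZero.exp_log hx, WithZero.exp_le_exp]
  exact Int.self_le_toNat _

section Matrix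

variable {E : Type*} [CommRing E] {Γ₀ : Type*} [LinearOrderedCommGroupWithZero Γ₀]
  (v : Valuation E Γ₀) {r : Type*} [Fintype r] [DecidableEq r]

/-- Entries of the `m`-th power of a matrix with entries of valuation `≤ A` (`1 ≤ A`) have
valuation `≤ A ^ m`. -/
theorem valuation_pow_apply_le (M : Matrix r r E) (A : Γ₀)
    (hM : ∀ k j, v (M k j) ≤ A) (m : ℕ) (k j : r) : v ((M ^ m) k j) ≤ A ^ m := by
  induction m generalizing k j with
  | zero =>
    rw [pow_zero, pow_zero, Matrix.one_apply]
    split_ifs <;> simp
  | succ m ih =>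
    rw [pow_succ, Matrix.mul_apply]
    refine v.map_sum_le fun p _ => ?_
    rw [v.map_mul, pow_succ]
    exact mul_le_mul' (ih k p) (hM p j)

end Matrix

end Fermat.Agent.AV.Upb43
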