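/-
Fermat/Agent/AV/Upb43/Bound.lean  (helper43)

Programme AV (S26/S27), brick UPB, ALGEBRAIC CORE: polynomial growth of spaces of sections on a
variety which is finite over `(P^1)^N`, by a lattice / degree argument (no induction on the
dimension, no restriction to fibres, no degree theory, no cohomology).

Setting: `P = K[t_i : i ∈ σ]`, `E = K(t) = Frac P`, `F` a finite field extension of `E` (the function
field of `V = C_1 × … × C_N`, finite over `(P^1)^N` via the coordinate functions `t_i` of the curves).
* `R0 ⊆ F` (the sections over the affine chart `V_0 = ∏ U0_i`) is contained in the `P`-span of a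
  finite family `ω`;
* for every `i`, `R i ⊆ F` (the sections over the chart `V_i` where the `i`-th factor is replaced by
  its chart at infinity) is contained in the span of a finite family `η i` with coefficients of
  `t_i`-degree `≤ 0` (e.g. polynomials in `t_j (j ≠ i)` and `1 / t_i`);
* `γ i ∈ F` (quotient of the local equations of a divisor on the two charts).
Then the `K`-dimension of any subspace `W` with `W ⊆ R0` and `W ⊆ γ i ^ m * R i` for all `i` is at
most `[F : E] * (m * a + b + 1) ^ N`, with `a, b` independent of `m` and `W`.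
-/
import Mathlib
import Fermat.Agent.AV.Upb43.DegVal

set_option autoImplicit false
set_option linter.unusedSectionVars false

open MvPolynomial Module
open scoped WithZero

namespace Fermat.Agent.AV.Upb43

section Count

variable (σ : Type*) [Fintype σ] (K : Type*) [Field K]

/-- The dimension of the space of polynomials of degree `≤ m` in each variable. -/
theorem finrank_restrictDegree (m : ℕ) :
    finrank K (restrictDegree σ K m) = (m + 1) ^ Fintype.card σ := by
  have h0 := finrank_eq_nat_card_basis (basisRestrictSupport K { n : σ →₀ ℕ | ∀ i, n i ≤ m })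
  rw [restrictDegree, h0]
  have e1 : { n : σ →₀ ℕ // ∀ i, n i ≤ m } ≃ { f : σ → ℕ // ∀ i, f i ≤ m } :=
    Equiv.subtypeEquiv Finsupp.equivFunOnFinite fun f => Iff.rfl
  have e2 : { f : σ → ℕ // ∀ i, f i ≤ m } ≃ (σ → { n : ℕ // n ≤ m }) :=
    Equiv.subtypePiEquivPi (p := fun _ n => n ≤ m)
  have e3 : { n : ℕ // n ≤ m } ≃ Fin (m + 1) :=
    (Equiv.subtypeEquivRight fun n => Nat.lt_succ_iff.symm).trans Fin.equivSubtype.symm
  have e : { n : σ →₀ ℕ // ∀ i, n i ≤ m } ≃ (σ → Fin (m + 1)) :=
    e1.trans (e2.trans (Equiv.arrowCongr (Equiv.refl σ) e3))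
  change Nat.card { n : σ →₀ ℕ // ∀ i, n i ≤ m } = _
  rw [Nat.card_congr e, Nat.card_fun, Nat.card_fin, Nat.card_eq_fintype_card]

theorem mem_restrictDegree_of_degreeOf_le (p : MvPolynomial σ K) (m : ℕ)
    (h : ∀ i, degreeOf i p ≤ m) : p ∈ restrictDegree σ K m := by
  rw [mem_restrictDegree]
  intro s hs i
  exact (monomial_le_degreeOf i hs).trans (h i)

end Count

section Main

variable {σ : Type*} [Fintype σ] (K : Type*) [Field K]
  (E : Type*) [Field E] [Algebra (MvPolynomial σ K) E] [IsFractionRing (MvPolynomial σ K) E]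
  (F : Type*) [Field F] [Algebra E F] [FiniteDimensional E F]
  [Algebra K E] [Algebra K F] [IsScalarTower K (MvPolynomial σ K) E] [IsScalarTower K E F]

local notation "P" => MvPolynomial σ K

/-- The `K`-linear map `(p_j) ↦ ∑ p_j β_j` on tuples of polynomials of bounded degree. -/
noncomputable def tupleMap {d : ℕ} (β : Fin d → F) (n : ℕ) :
    (Fin d → restrictDegree σ K n) →ₗ[K] F where
  toFun p := ∑ j, algebraMap P E (p j : P) • β j
  map_add' p q := by
    simp only [Pi.add_apply, Submodule.coe_add, map_add, add_smul, Finset.sum_add_distrib]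
  map_smul' c p := by
    simp only [Pi.smul_apply, Submodule.coe_smul, RingHom.id_apply, Finset.smul_sum]
    refine Finset.sum_congr rfl fun j _ => ?_
    rw [Algebra.smul_def c (p j : P), map_mul, ← IsScalarTower.algebraMap_apply K P E,
      mul_smul, algebraMap_smul]

/-- **UPB, algebraic core.** -/
theorem exists_finrank_le {r n : ℕ} (ω : Fin r → F) (R0 : Set F)
    (hR0 : ∀ x ∈ R0, ∃ p : Fin r → P, x = ∑ k, algebraMap P E (p k) • ω k)
    (η : σ → Fin n → F) (R : σ → Set F)
    (hR : ∀ i, ∀ y ∈ R i, ∃ c : Fin n → E,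
      (∀ l, degVal K E i (c l) ≤ 1) ∧ y = ∑ l, c l • η i l)
    (γ : σ → F) :
    ∃ a b : ℕ, ∀ (m : ℕ) (W : Submodule K F),
      (∀ x ∈ W, x ∈ R0 ∧ ∀ i, ∃ y ∈ R i, x = γ i ^ m * y) →
      Module.Finite K W ∧
        finrank K W ≤ finrank E F * (m * a + b + 1) ^ Fintype.card σ := by
  classical
  set d := finrank E F with hd
  let β : Basis (Fin d) E F := Module.finBasis E F
  -- a common denominator for the coordinates of `ω`
  obtain ⟨q, hq⟩ := IsLocalization.exist_integer_multiples (nonZeroDivisors P)
    (Finset.univ : Finset (Fin r × Fin d)) (fun kj => β.repr (ω kj.1) kj.2)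
  have hq0 : (q : P) ≠ 0 := nonZeroDivisors.ne_zero q.2
  set q' : E := algebraMap P E q with hq'
  have hq'0 : q' ≠ 0 := by
    rw [hq', Ne, map_eq_zero_iff _ (IsFractionRing.injective P E)]
    exact hq0
  choose u hu using fun kj : Fin r × Fin d => hq kj (Finset.mem_univ kj)
  -- the matrices of multiplication by `γ i`
  let M : σ → Matrix (Fin d) (Fin d) E := fun i =>
    LinearMap.toMatrix β β (Algebra.lmul E F (γ i))
  -- bounds
  have hbd1 : ∀ i, ∃ a : ℕ, ∀ k j, degVal K E i (M i k j) ≤ WithZero.exp (a : ℤ) := by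
    intro i
    obtain ⟨a, ha⟩ := exists_nat_le_exp
      (Finset.univ.sup fun kj : Fin d × Fin d => degVal K E i (M i kj.1 kj.2))
    exact ⟨a, fun k j => (Finset.le_sup (f := fun kj : Fin d × Fin d =>
      degVal K E i (M i kj.1 kj.2)) (Finset.mem_univ (k, j))).trans ha⟩
  have hbd2 : ∀ i, ∃ b : ℕ, ∀ l j, degVal K E i (q' * β.repr (η i l) j) ≤ WithZero.exp (b : ℤ) := by
    intro i
    obtain ⟨b, hb⟩ := exists_nat_le_exp
      (Finset.univ.sup fun lj : Fin n × Fin d => degVal K E i (q' * β.repr (η i lj.1) lj.2))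
    exact ⟨b, fun l j => (Finset.le_sup (f := fun lj : Fin n × Fin d =>
      degVal K E i (q' * β.repr (η i lj.1) lj.2)) (Finset.mem_univ (l, j))).trans hb⟩
  choose a ha using hbd1
  choose b hb using hbd2
  refine ⟨Finset.univ.sup a, Finset.univ.sup b, fun m W hW => ?_⟩
  set nn := m * Finset.univ.sup a + Finset.univ.sup b with hnn
  -- every element of `q' • W` lies in the range of `tupleMap β nn`
  have key : ∀ x ∈ W, q' • x ∈ LinearMap.range (tupleMap K E F (σ := σ) (fun j => β j) nn) := by
    intro x hx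
    obtain ⟨hx0, hxi⟩ := hW x hx
    obtain ⟨p, hp⟩ := hR0 x hx0
    -- the coordinates of `q' • x` are polynomials
    have hcoord : ∀ j, ∃ pj : P, algebraMap P E pj = β.repr (q' • x) j := by
      intro j
      refine ⟨∑ k, p k * u (k, j), ?_⟩
      rw [map_sum, hp, map_smul, Finsupp.smul_apply, map_sum, Finsupp.coe_finsetSum,
        Finset.sum_apply, smul_eq_mul, Finset.mul_sum]
      refine Finset.sum_congr rfl fun k _ => ?_
      rw [map_mul, hu (k, j), map_smul, Finsupp.smul_apply, smul_eq_mul, Algebra.smul_def]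
      ring
    choose pj hpj using hcoord
    -- degree bounds
    have hdeg : ∀ j i, degreeOf i (pj j) ≤ nn := by
      intro j i
      apply degreeOf_le_of_degVal_le K E
      rw [hpj j]
      obtain ⟨y, hy, hxy⟩ := hxi i
      obtain ⟨c, hc, hyc⟩ := hR i y hy
      have h1 : β.repr (q' • x) j =
          ∑ l, c l * ∑ k, (M i ^ m) j k * (q' * β.repr (η i l) k) := by
        have h2 : ∀ z : F, β.repr (γ i ^ m * z) = (M i ^ m).mulVec (β.repr z) := by
          intro z
          have : γ i ^ m * z = (Algebra.lmul E F (γ i) ^ m) z := by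
            rw [← map_pow]; rfl
          have hM : M i ^ m = LinearMap.toMatrix β β (Algebra.lmul E F (γ i) ^ m) :=
            LinearMap.toMatrix_pow _ _ _
          rw [this, hM, LinearMap.toMatrix_mulVec_repr]
        rw [hxy, map_smul, Finsupp.smul_apply, h2, hyc, map_sum, Matrix.mulVec, dotProduct,
          smul_eq_mul, Finset.mul_sum]
        simp only [map_smul, Finsupp.coe_finsetSum, Finsupp.coe_smul, Finset.sum_apply,
          Pi.smul_apply, smul_eq_mul, Finset.mul_sum]
        rw [Finset.sum_comm]
        refine Finset.sum_congr rfl fun l _ => Finset.sum_congr rfl fun k _ => ?_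
        ring
      rw [h1]
      refine (degVal K E i).map_sum_le fun l _ => ?_
      rw [(degVal K E i).map_mul]
      have h3 : degVal K E i (∑ k, (M i ^ m) j k * (q' * β.repr (η i l) k)) ≤
          WithZero.exp ((a i : ℤ)) ^ m * WithZero.exp (b i : ℤ) := by
        refine (degVal K E i).map_sum_le fun k _ => ?_
        rw [(degVal K E i).map_mul]
        exact mul_le_mul' (valuation_pow_apply_le _ (M i) _ (ha i) m j k) (hb i l k)
      calc degVal K E i (c l) * degVal K E i (∑ k, (M i ^ m) j k * (q' * β.repr (η i l) k))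
          ≤ 1 * (WithZero.exp ((a i : ℤ)) ^ m * WithZero.exp (b i : ℤ)) :=
            mul_le_mul' (hc l) h3
        _ = WithZero.exp ((m * a i + b i : ℕ) : ℤ) := by
            rw [one_mul, ← WithZero.exp_nsmul, ← WithZero.exp_add]
            congr 1
        _ ≤ WithZero.exp ((nn : ℕ) : ℤ) := by
            rw [WithZero.exp_le_exp]
            have h4 : a i ≤ Finset.univ.sup a := Finset.le_sup (Finset.mem_univ i)
            have h5 : b i ≤ Finset.univ.sup b := Finset.le_sup (Finset.mem_univ i)
            have : m * a i + b i ≤ nn := by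
              rw [hnn]; exact add_le_add (Nat.mul_le_mul_left m h4) h5
            exact_mod_cast this
    refine ⟨fun j => ⟨pj j, mem_restrictDegree_of_degreeOf_le σ K _ _ (hdeg j)⟩, ?_⟩
    change ∑ j, algebraMap P E (pj j) • β j = q' • x
    simp_rw [hpj]
    exact β.sum_repr (q' • x)
  -- the injective `K`-linear map `x ↦ q' • x`
  let Φ : W →ₗ[K] LinearMap.range (tupleMap K E F (σ := σ) (fun j => β j) nn) :=
    { toFun := fun x => ⟨q' • (x : F), key x x.2⟩
      map_add' := fun x y => by ext; simp [smul_add]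
      map_smul' := fun c x => by
        ext
        simp only [Submodule.coe_smul, RingHom.id_apply]
        rw [smul_comm] }
  have hΦ : Function.Injective Φ := by
    intro x y hxy
    have : q' • (x : F) = q' • (y : F) := congrArg Subtype.val hxy
    exact Subtype.ext (smul_right_injective F hq'0 this)
  have hfin : Module.Finite K (LinearMap.range (tupleMap K E F (σ := σ) (fun j => β j) nn)) :=
    Module.Finite.range _
  refine ⟨Module.Finite.of_injective Φ hΦ, ?_⟩
  calc finrank K W ≤ finrank K (LinearMap.range (tupleMap K E F (σ := σ) (fun j => β j) nn)) :=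
        LinearMap.finrank_le_finrank_of_injective hΦ
    _ ≤ finrank K (Fin d → restrictDegree σ K nn) := LinearMap.finrank_range_le _
    _ = d * (nn + 1) ^ Fintype.card σ := by
        rw [Module.finrank_pi_fintype, Finset.sum_const, Finset.card_univ, Fintype.card_fin,
          smul_eq_mul, finrank_restrictDegree]

/-- **UPB, algebraic core, `O(m ^ N)` form.** -/
theorem exists_finrank_le_mul_pow {r n : ℕ} (ω : Fin r → F) (R0 : Set F)
    (hR0 : ∀ x ∈ R0, ∃ p : Fin r → P, x = ∑ k, algebraMap P E (p k) • ω k)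
    (η : σ → Fin n → F) (R : σ → Set F)
    (hR : ∀ i, ∀ y ∈ R i, ∃ c : Fin n → E,
      (∀ l, degVal K E i (c l) ≤ 1) ∧ y = ∑ l, c l • η i l)
    (γ : σ → F) :
    ∃ C : ℕ, ∀ (m : ℕ) (W : Submodule K F), 1 ≤ m →
      (∀ x ∈ W, x ∈ R0 ∧ ∀ i, ∃ y ∈ R i, x = γ i ^ m * y) →
      Module.Finite K W ∧ finrank K W ≤ C * m ^ Fintype.card σ := by
  obtain ⟨a, b, h⟩ := exists_finrank_le K E F ω R0 hR0 η R hR γ
  refine ⟨finrank E F * (a + b + 1) ^ Fintype.card σ, fun m W hm hW => ?_⟩
  obtain ⟨h1, h2⟩ := h m W hW
  refine ⟨h1, h2.trans ?_⟩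
  rw [mul_assoc, ← mul_pow]
  refine Nat.mul_le_mul_left _ (Nat.pow_le_pow_left ?_ _)
  nlinarith [hm]

end Main

end Fermat.Agent.AV.Upb43
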