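/-
Fermat/Agent/AV/Upb43/DivBound.lean  (helper43)

Programme AV (S26/S27), brick UPB: an effective Cartier divisor has, on every affine open `U`, a
"universal denominator" `h ∈ Γ(U)`: `f h ^ m` is regular on `U` for all `f ∈ H⁰(m D)`.
-/
import Mathlib
import Fermat.Agent.AV.PicDiv86.Extension

set_option autoImplicit false

universe u

open AlgebraicGeometry CategoryTheory TopologicalSpace Opposite

namespace Fermat.Agent.AV.Upb43

open Fermat.Agent.AV.PicDiv86

variable {X : Scheme.{u}} [IsIntegral X]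

/-- Local version: around each point of an affine open `U` there is a basic open of `U` on which
`D` has a local equation that is regular on all of `U`. -/
theorem exists_localEq_regularOn {D : CaDiv X} (hD : D.IsEffective) {U : X.Opens}
    (hU : IsAffineOpen U) [Nonempty U] (x : X) (hx : x ∈ U) :
    ∃ (V : X.Opens) (h : X.functionFieldˣ), x ∈ V ∧ V ≤ U ∧
      (h : X.functionField) ∈ regularOn X (U : Set X) ∧ ∀ y ∈ V, D.IsLocalEq y h := by
  obtain ⟨W, hxW, e, he⟩ := D.exists_open_isLocalEq x
  obtain ⟨a, haW, hxa⟩ := hU.exists_basicOpen_le ⟨x, hxW⟩ hx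
  have hgen : genericPoint X ∈ U :=
    ((genericPoint_spec X).mem_open_set_iff U.isOpen).2 (by simpa using ‹Nonempty U›)
  -- `a` is nonzero in the function field
  have ha0 : X.germToFunctionField U a ≠ 0 := by
    intro h0
    have h1 : a = 0 := Scheme.germToFunctionField_injective X U (h0.trans (map_zero _).symm)
    rw [h1, Scheme.basicOpen_zero] at hxa
    exact hxa
  let fa : X.functionFieldˣ := Units.mk0 _ ha0
  have hfa : (fa : X.functionField) ∈ regularOn X (U : Set X) :=
    germToFunctionField_mem_regularOn a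
  -- units of `a`
  have hunit : ∀ y (hyU : y ∈ U), fa ∈ stalkUnits X y ↔ y ∈ X.basicOpen a := by
    intro y hyU
    rw [Scheme.mem_basicOpen X a y hyU]
    refine mem_stalkUnits_iff_isUnit (X.presheaf.germ U y hyU a) fa ?_
    rw [Scheme.algebraMap_germ_eq_germToFunctionField X hyU a]
    rfl
  obtain ⟨n, hn⟩ := exists_pow_mul_mem_regularOn hU fa hfa (e : X.functionField) (by
    intro y hyU hy
    exact hD y e (he y (haW ((hunit y hyU).1 hy))))
  refine ⟨X.basicOpen a, e * fa ^ n, hxa, X.basicOpen_le a, by simpa using hn, ?_⟩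
  intro y hy
  have hyU : y ∈ U := X.basicOpen_le a hy
  rw [CaDiv.isLocalEq_iff_of_isLocalEq (he y (haW hy))]
  have : e⁻¹ * (e * fa ^ n) = fa ^ n := by group
  rw [this]
  exact (stalkUnits X y).pow_mem ((hunit y hyU).2 hy) n

/-- **Universal denominators.**  For an effective Cartier divisor `D` and an affine open `U`
there is `h ≠ 0` regular on `U` with `f h ^ m` regular on `U` for all `m` and `f ∈ H⁰(m D)`. -/
theorem exists_mul_pow_mem_regularOn {D : CaDiv X} (hD : D.IsEffective) {U : X.Opens}
    (hU : IsAffineOpen U) [Nonempty U] :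
    ∃ h : X.functionField, h ≠ 0 ∧ h ∈ regularOn X (U : Set X) ∧
      ∀ (m : ℕ) (f : X.functionField), f ∈ (D ^ m).H0 → f * h ^ m ∈ regularOn X (U : Set X) := by
  classical
  choose V h hxV hVU hreg hloc using fun x : U => exists_localEq_regularOn hD hU x.1 x.2
  obtain ⟨t, ht⟩ := hU.isCompact.elim_finite_subcover (fun x : U => ((V x : X.Opens) : Set X))
    (fun x => (V x).isOpen) (fun x hx => Set.mem_iUnion.2 ⟨⟨x, hx⟩, hxV ⟨x, hx⟩⟩)
  refine ⟨∏ x ∈ t, (h x : X.functionField), ?_, ?_, ?_⟩
  · exact Finset.prod_ne_zero_iff.2 fun x _ => (h x).ne_zero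
  · exact Subring.prod_mem _ fun x _ => hreg x
  · intro m f hf
    rw [mem_regularOn]
    intro y hy
    obtain ⟨x0, hx0⟩ := Set.mem_iUnion.1 (ht hy)
    obtain ⟨hx0t, hyV⟩ := Set.mem_iUnion.1 hx0
    have h1 : f * ((h x0 ^ m : X.functionFieldˣ) : X.functionField) ∈ stalkSubring X y :=
      (CaDiv.mem_stalkLattice_iff_of_isLocalEq ((hloc x0 y hyV).pow m)).1 (CaDiv.mem_H0.1 hf y)
    have h2 : ∏ x ∈ t, (h x : X.functionField) =
        (h x0 : X.functionField) * ∏ x ∈ t.erase x0, (h x : X.functionField) :=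
      (Finset.mul_prod_erase t _ hx0t).symm
    have h3 : f * (∏ x ∈ t, (h x : X.functionField)) ^ m =
        f * ((h x0 ^ m : X.functionFieldˣ) : X.functionField) *
          (∏ x ∈ t.erase x0, (h x : X.functionField)) ^ m := by
      rw [h2]; push_cast; ring
    rw [h3]
    refine (stalkSubring X y).mul_mem h1 ((stalkSubring X y).pow_mem ?_ m)
    exact Subring.prod_mem _ fun x _ => mem_regularOn.1 (hreg x) y hy

end Fermat.Agent.AV.Upb43
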