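/-
Fermat/Agent/AV/Upb43/AlgBox.lean  (helper43)

Programme AV (S26/S27), brick UPB, pure algebra: "box chart" data on a field extension `F / K`
(the function field of a product of curves) and the resulting polynomial bound for the dimension
of spaces of functions with poles bounded by `m D`.
-/
import Mathlib
import Fermat.Agent.AV.Upb43.Bound

set_option autoImplicit false

open MvPolynomial Module
open scoped WithZero Classical

namespace Fermat.Agent.AV.Upb43

/-- Algebraic box-chart data on a field extension `F / K` with coordinates indexed by `σ`: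
a "finite chart" ring `R0 ⊆ F` with fraction field `F`, contained in a finitely generated module
over `K[T]`; and for each coordinate `i` a chart ring `R i` "at `T i = ∞`" contained in a finitely
generated module over `K[T_j (j ≠ i), (T i)⁻¹]`. -/
structure AlgBox (K : Type*) (F : Type*) [Field K] [Field F] [Algebra K F] (σ : Type*) where
  T : σ → F
  indep : AlgebraicIndependent K T
  R0 : Subalgebra K F
  T_mem : ∀ i, T i ∈ R0
  frac0 : ∀ z : F, ∃ a ∈ R0, ∃ b ∈ R0, b ≠ 0 ∧ z * b = a
  S0 : Finset F
  S0_mem : ∀ x ∈ S0, x ∈ R0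
  span0 : ∀ f ∈ R0, f ∈ Submodule.span (Algebra.adjoin K (Set.range T)) (S0 : Set F)
  R : σ → Subalgebra K F
  S : σ → Finset F
  spanR : ∀ i, ∀ g ∈ R i, g ∈ Submodule.span
    (Algebra.adjoin K (insert (T i)⁻¹ (T '' {j | j ≠ i}))) (S i : Set F)

section Helper

variable {K : Type*} {F : Type*} [Field K] [Field F] [Algebra K F]

/-- Elements of the span of a finite set over a subalgebra `A`, all of whose elements come from
elements of `E` satisfying a predicate closed under `0, 1, +, *`, are combinations of an
enumeration of the finite set with coefficients satisfying the predicate. -/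
theorem exists_coeff_of_mem_span {E : Type*} [Field E] [Algebra E F] (A : Subalgebra K F)
    (S : Finset F) (pred : E → Prop) (h0 : pred 0) (h1 : pred 1)
    (hadd : ∀ a b, pred a → pred b → pred (a + b))
    (hmul : ∀ a b, pred a → pred b → pred (a * b))
    (hA : ∀ a ∈ A, ∃ e, pred e ∧ algebraMap E F e = a) {f : F}
    (hf : f ∈ Submodule.span A (S : Set F)) :
    ∃ c : Fin S.card → E, (∀ l, pred (c l)) ∧ f = ∑ l, c l • ((S.equivFin.symm l : S) : F) := by
  induction hf using Submodule.span_induction with
  | mem x hx =>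
    refine ⟨Pi.single (S.equivFin ⟨x, hx⟩) 1, fun l => ?_, ?_⟩
    · by_cases h : l = S.equivFin ⟨x, hx⟩
      · subst h; simpa using h1
      · simpa [Pi.single_apply, h] using h0
    · rw [Finset.sum_eq_single (S.equivFin ⟨x, hx⟩)]
      · simp
      · intro l _ hl
        simp [hl]
      · intro h; exact absurd (Finset.mem_univ _) h
  | zero => exact ⟨0, fun _ => h0, by simp⟩
  | add x y _ _ hx hy =>
    obtain ⟨c, hc, rfl⟩ := hx
    obtain ⟨c', hc', rfl⟩ := hy
    exact ⟨c + c', fun l => hadd _ _ (hc l) (hc' l), by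
      simp [add_smul, Finset.sum_add_distrib]⟩
  | smul a x _ hx =>
    obtain ⟨c, hc, rfl⟩ := hx
    obtain ⟨e, he, hea⟩ := hA a a.2
    refine ⟨fun l => e * c l, fun l => hmul _ _ he (hc l), ?_⟩
    rw [Subalgebra.smul_def, ← hea, smul_eq_mul, ← Algebra.smul_def, Finset.smul_sum]
    simp [mul_smul]

end Helper

section Bound

variable {K : Type*} {F : Type*} [Field K] [Field F] [Algebra K F] {σ : Type*} [Fintype σ]

/-- **UPB, algebraic form.**  Box-chart data give a bound `C m ^ (card σ)` for the dimension of
any `K`-space `W ⊆ F` of functions `x ∈ R0` with `x ∈ γ i ^ m • R i` for all `i`. -/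
theorem AlgBox.exists_finrank_le (bx : AlgBox K F σ) (γ : σ → F) :
    ∃ C : ℕ, ∀ (m : ℕ) (W : Submodule K F), 1 ≤ m →
      (∀ x ∈ W, x ∈ bx.R0 ∧ ∀ i, ∃ y ∈ bx.R i, x = γ i ^ m * y) →
      Module.Finite K W ∧ finrank K W ≤ C * m ^ Fintype.card σ := by
  let P := MvPolynomial σ K
  let E := FractionRing P
  have hinj : Function.Injective ((aeval bx.T : P →ₐ[K] F) : P →+* F) := bx.indep
  let φ : E →+* F := IsFractionRing.lift hinj
  let _ : Algebra E F := φ.toAlgebra
  have hφ : ∀ p : P, algebraMap E F (algebraMap P E p) = aeval bx.T p :=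
    fun p => IsFractionRing.lift_algebraMap hinj p
  have : IsScalarTower K E F := IsScalarTower.of_algebraMap_eq (fun a => by
    rw [IsScalarTower.algebraMap_apply K P E, hφ, MvPolynomial.algebraMap_eq, aeval_C])
  -- elements of `K[T]` come from polynomials
  have hAT : ∀ a ∈ Algebra.adjoin K (Set.range bx.T),
      ∃ e : E, (∃ p : P, algebraMap P E p = e) ∧ algebraMap E F e = a := by
    intro a ha
    rw [Algebra.adjoin_range_eq_range_aeval] at ha
    obtain ⟨p, rfl⟩ := ha
    exact ⟨algebraMap P E p, ⟨p, rfl⟩, hφ p⟩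
  -- `F` is finite over `E`
  have : FiniteDimensional E F := by
    set S : Submodule E F := Submodule.span E (bx.S0 : Set F) with hS
    have h1 : ∀ f ∈ bx.R0, f ∈ S := by
      intro f hf
      have := bx.span0 f hf
      clear hf
      induction this using Submodule.span_induction with
      | mem x hx => exact Submodule.subset_span hx
      | zero => exact S.zero_mem
      | add x y _ _ hx hy => exact S.add_mem hx hy
      | smul a x _ hx =>
        obtain ⟨e, -, hea⟩ := hAT a a.2
        rw [Subalgebra.smul_def, ← hea, smul_eq_mul, ← Algebra.smul_def]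
        exact S.smul_mem e hx
    have h2 : ∀ b ∈ bx.R0, ∀ x ∈ S, b * x ∈ S := by
      intro b hb x hx
      induction hx using Submodule.span_induction with
      | mem x hx => exact h1 _ (bx.R0.mul_mem hb (bx.S0_mem x hx))
      | zero => simp
      | add x y _ _ hx hy => rw [mul_add]; exact S.add_mem hx hy
      | smul e x _ hx => rw [mul_smul_comm]; exact S.smul_mem e hx
    have hfin : FiniteDimensional E S := FiniteDimensional.span_finset E bx.S0
    have h3 : S = ⊤ := by
      rw [eq_top_iff]
      intro z _
      obtain ⟨a, ha, b, hb, hb0, hz⟩ := bx.frac0 z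
      let μ : S →ₗ[E] S := (LinearMap.mulLeft E b).restrict (fun x hx => h2 b hb x hx)
      have hμinj : Function.Injective μ := by
        intro x y hxy
        have : b * (x : F) = b * (y : F) := congrArg Subtype.val hxy
        exact Subtype.ext (mul_left_cancel₀ hb0 this)
      obtain ⟨s, hs⟩ := (LinearMap.injective_iff_surjective.1 hμinj) ⟨a, h1 a ha⟩
      have hs' : b * (s : F) = a := congrArg Subtype.val hs
      have : z = s := by
        apply mul_right_cancel₀ hb0
        rw [hz, ← hs', mul_comm]
      rw [this]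
      exact s.2
    exact Module.finite_def.2 (h3 ▸ Submodule.fg_span bx.S0.finite_toSet)
  -- the finite generating sets, uniformly in `i`
  let Sall : Finset F := Finset.univ.biUnion bx.S
  have hAi : ∀ i, ∀ a ∈ Algebra.adjoin K (insert (bx.T i)⁻¹ (bx.T '' {j | j ≠ i})),
      ∃ e : E, degVal K E i e ≤ 1 ∧ algebraMap E F e = a := by
    intro i a ha
    induction ha using Algebra.adjoin_induction with
    | mem x hx =>
      rcases hx with rfl | ⟨j, hj, rfl⟩
      · refine ⟨(algebraMap P E (X i))⁻¹, ?_, ?_⟩
        · rw [map_inv₀, degVal_algebraMap, degValPoly_apply_of_ne_zero i (X_ne_zero i),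
            degreeOf_X, if_pos rfl, ← WithZero.exp_neg]
          exact (WithZero.exp_le_exp.2 (by norm_num)).trans (le_of_eq WithZero.exp_zero)
        · rw [map_inv₀, hφ, aeval_X]
      · refine ⟨algebraMap P E (X j), ?_, ?_⟩
        · rw [degVal_algebraMap, degValPoly_apply_of_ne_zero i (X_ne_zero j),
            degreeOf_X, if_neg (fun h => hj h.symm)]
          simp
        · rw [hφ, aeval_X]
    | algebraMap r =>
      refine ⟨algebraMap P E (C r), ?_, ?_⟩
      · rw [degVal_algebraMap]
        by_cases hr : (C r : P) = 0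
        · rw [hr]; simp
        · rw [degValPoly_apply_of_ne_zero i hr, degreeOf_C]; simp
      · rw [hφ, aeval_C]
    | add x y _ _ hx hy =>
      obtain ⟨e, he, rfl⟩ := hx
      obtain ⟨e', he', rfl⟩ := hy
      exact ⟨e + e', ((degVal K E i).map_add_le_max' e e').trans (max_le he he'), map_add _ _ _⟩
    | mul x y _ _ hx hy =>
      obtain ⟨e, he, rfl⟩ := hx
      obtain ⟨e', he', rfl⟩ := hy
      exact ⟨e * e', by rw [map_mul]; exact mul_le_one' he he', map_mul _ _ _⟩
  obtain ⟨C, hC⟩ := exists_finrank_le_mul_pow K E F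
    (fun k : Fin bx.S0.card => ((bx.S0.equivFin.symm k : bx.S0) : F)) (bx.R0 : Set F)
    (fun x hx => by
      obtain ⟨c, hc, hx'⟩ := exists_coeff_of_mem_span (E := E) _ bx.S0
        (fun e => ∃ p : P, algebraMap P E p = e) ⟨0, map_zero _⟩ ⟨1, map_one _⟩
        (fun a b ⟨p, hp⟩ ⟨q, hq⟩ => ⟨p + q, by rw [map_add, hp, hq]⟩)
        (fun a b ⟨p, hp⟩ ⟨q, hq⟩ => ⟨p * q, by rw [map_mul, hp, hq]⟩) hAT (bx.span0 x hx)
      choose p hp using hc
      exact ⟨p, by rw [hx']; exact Finset.sum_congr rfl (fun l _ => by rw [hp])⟩)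
    (fun (_ : σ) (l : Fin Sall.card) => ((Sall.equivFin.symm l : Sall) : F))
    (fun i => (bx.R i : Set F))
    (fun i y hy => by
      have hy' : y ∈ Submodule.span
          (Algebra.adjoin K (insert (bx.T i)⁻¹ (bx.T '' {j | j ≠ i}))) (Sall : Set F) :=
        Submodule.span_mono (by
          intro x hx
          exact Finset.mem_coe.2 (Finset.mem_biUnion.2 ⟨i, Finset.mem_univ i, hx⟩))
          (bx.spanR i y hy)
      exact exists_coeff_of_mem_span (E := E) _ Sall (fun e => degVal K E i e ≤ 1)
        (by simp) (by simp)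
        (fun a b ha hb => ((degVal K E i).map_add_le_max' a b).trans (max_le ha hb))
        (fun a b ha hb => by rw [map_mul]; exact mul_le_one' ha hb) (hAi i) hy')
    γ
  exact ⟨C, fun m W hm hW => hC m W hm hW⟩

end Bound

end Fermat.Agent.AV.Upb43
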