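/-
Fermat/Agent/AV/Upb43/AlgBoxStep.lean  (helper43)

Programme AV (S26/S27), brick UPB, pure algebra: the base case (`F = K`) and the inductive step
(adding one curve factor) for `AlgBox` data.
-/
import Mathlib
import Fermat.Agent.AV.Upb43.AlgBox

set_option autoImplicit false

open MvPolynomial Module
open scoped Classical

namespace Fermat.Agent.AV.Upb43

section Base

variable {K : Type*} {F : Type*} [Field K] [Field F] [Algebra K F]

/-- Base case: `F = K`, no coordinates. -/
noncomputable def AlgBox.ofSurjective (h : Function.Surjective (algebraMap K F))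
    (σ : Type*) [IsEmpty σ] : AlgBox K F σ where
  T := isEmptyElim
  indep := algebraicIndependent_empty_type_iff.2 (FaithfulSMul.algebraMap_injective K F)
  R0 := ⊤
  T_mem := isEmptyElim
  frac0 z := ⟨z, Algebra.mem_top, 1, Algebra.mem_top, one_ne_zero, mul_one z⟩
  S0 := {1}
  S0_mem _ _ := Algebra.mem_top
  span0 f _ := by
    obtain ⟨a, rfl⟩ := h f
    have : algebraMap K F a = (algebraMap K (Algebra.adjoin K (Set.range
        (isEmptyElim : σ → F))) a) • (1 : F) := by
      rw [Subalgebra.smul_def, smul_eq_mul, mul_one]; rfl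
    rw [this]
    exact Submodule.smul_mem _ _ (Submodule.subset_span (by simp))
  R := isEmptyElim
  S := isEmptyElim
  spanR := isEmptyElim

end Base

section Step

variable {K : Type*} [Field K] {FC FY FV : Type*} [Field FC] [Field FY] [Field FV]
  [Algebra K FC] [Algebra K FY] [Algebra K FV]

theorem algHom_mem_adjoin {A B : Type*} [CommRing A] [CommRing B] [Algebra K A] [Algebra K B]
    {s : Set A} {s' : Set B} (φ : A →ₐ[K] B)
    (h : ∀ x ∈ s, φ x ∈ Algebra.adjoin K s') {a : A} (ha : a ∈ Algebra.adjoin K s) :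
    φ a ∈ Algebra.adjoin K s' := by
  have : Algebra.adjoin K s ≤ (Algebra.adjoin K s').comap φ := Algebra.adjoin_le h
  exact this ha

/-- Products of elements of finitely generated modules over subalgebras. -/
theorem span_prod (φC : FC →ₐ[K] FV) (φY : FY →ₐ[K] FV)
    (AC : Subalgebra K FC) (AY : Subalgebra K FY) (AV : Subalgebra K FV)
    (hC : ∀ a ∈ AC, φC a ∈ AV) (hY : ∀ a ∈ AY, φY a ∈ AV)
    (SC : Finset FC) (SY : Finset FY) (B : Set FC) (R : Set FY)
    (hB : ∀ b ∈ B, b ∈ Submodule.span AC (SC : Set FC))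
    (hR : ∀ r ∈ R, r ∈ Submodule.span AY (SY : Set FY)) {x : FV}
    (hx : x ∈ Submodule.span K (Set.image2 (fun b r => φC b * φY r) B R)) :
    x ∈ Submodule.span AV
      ((Finset.image₂ (fun b r => φC b * φY r) SC SY : Finset FV) : Set FV) := by
  classical
  set M := Submodule.span AV
      ((Finset.image₂ (fun b r => φC b * φY r) SC SY : Finset FV) : Set FV) with hM
  have key : ∀ b ∈ Submodule.span AC (SC : Set FC), ∀ r ∈ Submodule.span AY (SY : Set FY),
      φC b * φY r ∈ M := by
    intro b hb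
    induction hb using Submodule.span_induction with
    | mem b hb =>
      intro r hr
      induction hr using Submodule.span_induction with
      | mem r hr =>
        exact Submodule.subset_span (Finset.mem_coe.2 (Finset.mem_image₂_of_mem hb hr))
      | zero => simp
      | add x y _ _ hx hy => rw [map_add, mul_add]; exact M.add_mem hx hy
      | smul a x _ hx =>
        rw [Subalgebra.smul_def, smul_eq_mul, map_mul, mul_left_comm]
        exact M.smul_mem (⟨φY a, hY a a.2⟩ : AV) hx
    | zero => intro r _; simp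
    | add x y _ _ hx hy =>
      intro r hr
      rw [map_add, add_mul]; exact M.add_mem (hx r hr) (hy r hr)
    | smul a x _ hx =>
      intro r hr
      rw [Subalgebra.smul_def, smul_eq_mul, map_mul, mul_assoc]
      exact M.smul_mem (⟨φC a, hC a a.2⟩ : AV) (hx r hr)
  induction hx using Submodule.span_induction with
  | mem x hx =>
    obtain ⟨b, hb, r, hr, rfl⟩ := hx
    exact key b (hB b hb) r (hR r hr)
  | zero => exact M.zero_mem
  | add x y _ _ hx hy => exact M.add_mem hx hy
  | smul a x _ hx =>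
    have : a • x = (algebraMap K AV a) • x := by
      rw [Subalgebra.smul_def, smul_eq_mul, Algebra.smul_def]; rfl
    rw [this]
    exact M.smul_mem _ hx

/-- The new coordinate family on the product. -/
def stepT {σ : Type*} (φC : FC →ₐ[K] FV) (φY : FY →ₐ[K] FV) (t : FC) (T : σ → FY) :
    Option σ → FV := fun o => o.elim (φC t) (fun j => φY (T j))

/-- **Inductive step**: box data on `F_Y`, a two-chart curve `(B0 ∋ t, B1 ∋ s = t⁻¹)` in `F_C`,
and a field `F_V ⊇ F_C, F_Y` whose chart rings are spanned by products, give box data on `F_V`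
with one more coordinate. -/
noncomputable def AlgBox.step {σ : Type*} (bx : AlgBox K FY σ)
    (φC : FC →ₐ[K] FV) (φY : FY →ₐ[K] FV)
    (B0 B1 : Subalgebra K FC) (t s : FC) (ht : t ∈ B0) (hts : t * s = 1)
    (SC0 SC1 : Finset FC) (hSC0 : ∀ x ∈ SC0, x ∈ B0)
    (hB0 : ∀ b ∈ B0, b ∈ Submodule.span (Algebra.adjoin K ({t} : Set FC)) (SC0 : Set FC))
    (hB1 : ∀ b ∈ B1, b ∈ Submodule.span (Algebra.adjoin K ({s} : Set FC)) (SC1 : Set FC))
    (R0V R1V : Subalgebra K FV) (RjV : σ → Subalgebra K FV)
    (h0 : ∀ x ∈ R0V, x ∈ Submodule.span K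
      (Set.image2 (fun b r => φC b * φY r) (B0 : Set FC) (bx.R0 : Set FY)))
    (h0C : ∀ b ∈ B0, φC b ∈ R0V) (h0Y : ∀ r ∈ bx.R0, φY r ∈ R0V)
    (h1 : ∀ x ∈ R1V, x ∈ Submodule.span K
      (Set.image2 (fun b r => φC b * φY r) (B1 : Set FC) (bx.R0 : Set FY)))
    (hj : ∀ j, ∀ x ∈ RjV j, x ∈ Submodule.span K
      (Set.image2 (fun b r => φC b * φY r) (B0 : Set FC) (bx.R j : Set FY)))
    (frac : ∀ z : FV, ∃ a ∈ R0V, ∃ b ∈ R0V, b ≠ 0 ∧ z * b = a)
    (inj : ∀ (n : ℕ) (r : Fin n → FY), (∀ d, r d ∈ bx.R0) →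
      ∑ d : Fin n, φC t ^ (d : ℕ) * φY (r d) = 0 → ∀ d, r d = 0) :
    AlgBox K FV (Option σ) where
  T := stepT φC φY t bx.T
  indep := by
    have hY : AlgebraicIndependent K (fun j => φY (bx.T j)) :=
      bx.indep.map' (f := φY) φY.injective
    refine (hY.option_iff_transcendental (φC t)).2 ?_
    rw [transcendental_iff]
    intro p hp
    -- coefficients of `p` come from `bx.R0`
    have hcoef : ∀ d, ∃ r ∈ bx.R0, φY r = (p.coeff d : FV) := by
      intro d
      have h1 : Algebra.adjoin K (Set.range fun j => φY (bx.T j)) ≤ bx.R0.map φY := by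
        refine Algebra.adjoin_le ?_
        rintro _ ⟨j, rfl⟩
        exact ⟨bx.T j, bx.T_mem j, rfl⟩
      obtain ⟨r, hr, hr'⟩ := h1 (p.coeff d).2
      exact ⟨r, hr, hr'⟩
    choose r hr hr' using hcoef
    rw [Polynomial.aeval_eq_sum_range, Finset.sum_range] at hp
    have hz := inj (p.natDegree + 1) (fun d => r d) (fun d => hr d) (by
      rw [← hp]
      refine Finset.sum_congr rfl fun d _ => ?_
      rw [hr', Subalgebra.smul_def, smul_eq_mul, mul_comm])
    ext d
    rw [Polynomial.coeff_zero]
    by_cases hd : d < p.natDegree + 1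
    · rw [← hr', hz ⟨d, hd⟩, map_zero]; rfl
    · rw [Polynomial.coeff_eq_zero_of_natDegree_lt (show p.natDegree < d by omega)]
  R0 := R0V
  T_mem := by
    rintro (_ | j)
    · exact h0C t ht
    · exact h0Y _ (bx.T_mem j)
  frac0 := frac
  S0 := Finset.image₂ (fun b r => φC b * φY r) SC0 bx.S0
  S0_mem := by
    intro x hx
    obtain ⟨b, hb, r, hr, rfl⟩ := Finset.mem_image₂.1 hx
    exact R0V.mul_mem (h0C b (hSC0 b hb)) (h0Y r (bx.S0_mem r hr))
  span0 := by
    intro f hf
    refine span_prod φC φY _ _ _ ?_ ?_ SC0 bx.S0 _ _ hB0 bx.span0 (h0 f hf)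
    · intro a ha
      refine algHom_mem_adjoin φC ?_ ha
      rintro _ rfl
      exact Algebra.subset_adjoin ⟨none, rfl⟩
    · intro a ha
      refine algHom_mem_adjoin φY ?_ ha
      rintro _ ⟨j, rfl⟩
      exact Algebra.subset_adjoin ⟨some j, rfl⟩
  R := fun o => o.elim R1V RjV
  S := fun o => o.elim (Finset.image₂ (fun b r => φC b * φY r) SC1 bx.S0)
    (fun j => Finset.image₂ (fun b r => φC b * φY r) SC0 (bx.S j))
  spanR := by
    rintro (_ | j) g hg
    · refine span_prod φC φY _ _ _ ?_ ?_ SC1 bx.S0 _ _ hB1 bx.span0 (h1 g hg)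
      · intro a ha
        refine algHom_mem_adjoin φC ?_ ha
        intro x hx
        rw [Set.mem_singleton_iff.1 hx]
        refine Algebra.subset_adjoin (Set.mem_insert_iff.2 (Or.inl ?_))
        have h1 : φC t * φC s = 1 := by rw [← map_mul, hts, map_one]
        exact eq_inv_of_mul_eq_one_right h1
      · intro a ha
        refine algHom_mem_adjoin φY ?_ ha
        rintro _ ⟨j, rfl⟩
        exact Algebra.subset_adjoin (Set.mem_insert_of_mem _ ⟨some j, by simp, rfl⟩)
    · refine span_prod φC φY _ _ _ ?_ ?_ SC0 (bx.S j) _ _ hB0 (bx.spanR j) (hj j g hg)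
      · intro a ha
        refine algHom_mem_adjoin φC ?_ ha
        rintro _ rfl
        exact Algebra.subset_adjoin (Set.mem_insert_of_mem _ ⟨none, by simp, rfl⟩)
      · intro a ha
        refine algHom_mem_adjoin φY ?_ ha
        rintro _ (rfl | ⟨l, hl, rfl⟩)
        · refine Algebra.subset_adjoin (Set.mem_insert_iff.2 (Or.inl ?_))
          exact map_inv₀ φY _
        · exact Algebra.subset_adjoin (Set.mem_insert_of_mem _
            ⟨some l, by simpa using hl, rfl⟩)

end Step

end Fermat.Agent.AV.Upb43
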