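/-
Fermat/Agent/AV/Upb43/TensorChart.lean  (helper43)

Programme AV (S26/S27), brick UPB, geometry: for `K`-schemes `c : C ⟶ Spec K`, `y : Y ⟶ Spec K`
and affine opens `U ⊆ C`, `W ⊆ Y`, the "box" `fst ⁻¹ U ⊓ snd ⁻¹ W` of `C ×ₖ Y` is affine with ring
of sections `Γ(C, U) ⊗[K] Γ(Y, W)`.
-/
import Mathlib
import Fermat.Agent.Jac.CurveCharts

set_option autoImplicit false

universe u

open CategoryTheory CategoryTheory.Limits AlgebraicGeometry TensorProduct

namespace Fermat.Agent.AV.Upb43

open Fermat.Agent.Jac (sectionsRingHom)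

variable {K : Type u} [Field K] {C Y : Scheme.{u}} (c : C ⟶ Spec (CommRingCat.of K))
  (y : Y ⟶ Spec (CommRingCat.of K))

/-- The box open `fst ⁻¹ U ⊓ snd ⁻¹ W` of the fibre product. -/
noncomputable def boxOpen (U : C.Opens) (W : Y.Opens) : (pullback c y).Opens :=
  (pullback.fst c y) ⁻¹ᵁ U ⊓ (pullback.snd c y) ⁻¹ᵁ W

theorem boxOpen_le_fst (U : C.Opens) (W : Y.Opens) :
    boxOpen c y U W ≤ (pullback.fst c y) ⁻¹ᵁ U := inf_le_left

theorem boxOpen_le_snd (U : C.Opens) (W : Y.Opens) :
    boxOpen c y U W ≤ (pullback.snd c y) ⁻¹ᵁ W := inf_le_right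

/-- `fromSpec` of an affine open is a morphism over `K`. -/
theorem specMap_algebraMap_eq {U : C.Opens} (hU : IsAffineOpen U) [Algebra K Γ(C, U)]
    (hA : algebraMap K Γ(C, U) = sectionsRingHom c U) :
    Spec.map (CommRingCat.ofHom (algebraMap K Γ(C, U))) = hU.fromSpec ≫ c := by
  have h2 := IsAffineOpen.SpecMap_appLE_fromSpec c (isAffineOpen_top _) hU le_top
  rw [IsAffineOpen.fromSpec_top, Scheme.isoSpec_Spec_inv] at h2
  rw [← h2, ← Spec.map_comp, hA]
  rfl

section Chart

variable {U : C.Opens} {W : Y.Opens} (hU : IsAffineOpen U) (hW : IsAffineOpen W)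
  [Algebra K Γ(C, U)] [Algebra K Γ(Y, W)]
  (hA : algebraMap K Γ(C, U) = sectionsRingHom c U)
  (hB : algebraMap K Γ(Y, W) = sectionsRingHom y W)

/-- The chart `Spec (Γ(C, U) ⊗[K] Γ(Y, W)) ⟶ C ×ₖ Y`. -/
noncomputable def chartMap :
    Spec (CommRingCat.of (Γ(C, U) ⊗[K] Γ(Y, W))) ⟶ pullback c y :=
  (pullbackSpecIso K Γ(C, U) Γ(Y, W)).inv ≫
    pullback.map _ _ c y hU.fromSpec hW.fromSpec (𝟙 _)
      (by rw [Category.comp_id]; exact specMap_algebraMap_eq c hU hA)
      (by rw [Category.comp_id]; exact specMap_algebraMap_eq y hW hB)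

instance : IsOpenImmersion (chartMap c y hU hW hA hB) := by
  unfold chartMap
  infer_instance

theorem chartMap_fst :
    chartMap c y hU hW hA hB ≫ pullback.fst c y =
      Spec.map (CommRingCat.ofHom Algebra.TensorProduct.includeLeftRingHom) ≫ hU.fromSpec := by
  unfold chartMap
  rw [Category.assoc, pullback.lift_fst, ← Category.assoc, pullbackSpecIso_inv_fst]

theorem chartMap_snd :
    chartMap c y hU hW hA hB ≫ pullback.snd c y =
      Spec.map (CommRingCat.ofHom (Algebra.TensorProduct.includeRight (R := K)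
        (A := Γ(C, U)) (B := Γ(Y, W))).toRingHom) ≫ hW.fromSpec := by
  unfold chartMap
  rw [Category.assoc, pullback.lift_snd, ← Category.assoc, pullbackSpecIso_inv_snd]
  rfl

theorem range_chartMap :
    Set.range (chartMap c y hU hW hA hB) = ((boxOpen c y U W : (pullback c y).Opens) :
      Set ↥(pullback c y)) := by
  unfold chartMap
  have hs : Function.Surjective (pullbackSpecIso K Γ(C, U) Γ(Y, W)).inv :=
    (pullbackSpecIso K Γ(C, U) Γ(Y, W)).inv.homeomorph.surjective
  rw [Scheme.Hom.comp_base, TopCat.coe_comp, Set.range_comp, Set.range_eq_univ.2 hs,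
    Set.image_univ, Scheme.Pullback.range_map, hU.range_fromSpec, hW.range_fromSpec]
  rfl

include hU hW hA hB in
theorem isAffineOpen_boxOpen : IsAffineOpen (boxOpen c y U W) := by
  have h := isAffineOpen_opensRange (chartMap c y hU hW hA hB)
  have : (chartMap c y hU hW hA hB).opensRange = boxOpen c y U W :=
    TopologicalSpace.Opens.ext (range_chartMap c y hU hW hA hB)
  rwa [this] at h

include hU hW hA hB in
/-- The comparison ring isomorphism `Γ(C ×ₖ Y, box) ≃ Γ(C, U) ⊗[K] Γ(Y, W)`: it sends pulled-back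
sections to pure tensors. -/
theorem exists_tensorEquiv :
    ∃ ψ : Γ(pullback c y, boxOpen c y U W) ≃+* (Γ(C, U) ⊗[K] Γ(Y, W)),
      (∀ a : Γ(C, U), ψ (((pullback.fst c y).appLE U (boxOpen c y U W)
        (boxOpen_le_fst c y U W)).hom a) = a ⊗ₜ 1) ∧
      (∀ b : Γ(Y, W), ψ (((pullback.snd c y).appLE W (boxOpen c y U W)
        (boxOpen_le_snd c y U W)).hom b) = 1 ⊗ₜ b) := by
  have hP := isAffineOpen_boxOpen c y hU hW hA hB
  let θ := IsOpenImmersion.isoOfRangeEq (chartMap c y hU hW hA hB) hP.fromSpec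
    (by rw [range_chartMap, hP.range_fromSpec])
  have hθ : θ.hom ≫ hP.fromSpec = chartMap c y hU hW hA hB :=
    IsOpenImmersion.isoOfRangeEq_hom_fac _ _ _
  obtain ⟨ψ, hψ⟩ := Spec.map_surjective θ.hom
  obtain ⟨χ, hχ⟩ := Spec.map_surjective θ.inv
  have h1 : ψ ≫ χ = 𝟙 _ := Spec.map_injective (by
    rw [Spec.map_comp, hψ, hχ, Spec.map_id]; exact θ.inv_hom_id)
  have h2 : χ ≫ ψ = 𝟙 _ := Spec.map_injective (by
    rw [Spec.map_comp, hψ, hχ, Spec.map_id]; exact θ.hom_inv_id)
  have h1' : ∀ z, χ.hom (ψ.hom z) = z := fun z => by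
    have := congrArg (fun f => f.hom z) h1
    simpa using this
  have h2' : ∀ z, ψ.hom (χ.hom z) = z := fun z => by
    have := congrArg (fun f => f.hom z) h2
    simpa using this
  refine ⟨RingEquiv.ofRingHom ψ.hom χ.hom (RingHom.ext h2') (RingHom.ext h1'), ?_, ?_⟩
  · have e : (pullback.fst c y).appLE U (boxOpen c y U W) (boxOpen_le_fst c y U W) ≫ ψ =
        CommRingCat.ofHom Algebra.TensorProduct.includeLeftRingHom := by
      apply Spec.map_injective
      rw [Spec.map_comp, hψ, ← cancel_mono hU.fromSpec, Category.assoc,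
        IsAffineOpen.SpecMap_appLE_fromSpec _ hU hP, ← Category.assoc, hθ, chartMap_fst]
    intro a
    have := congrArg (fun f => f.hom a) e
    simpa using this
  · have e : (pullback.snd c y).appLE W (boxOpen c y U W) (boxOpen_le_snd c y U W) ≫ ψ =
        CommRingCat.ofHom (Algebra.TensorProduct.includeRight (R := K)
          (A := Γ(C, U)) (B := Γ(Y, W))).toRingHom := by
      apply Spec.map_injective
      rw [Spec.map_comp, hψ, ← cancel_mono hW.fromSpec, Category.assoc,
        IsAffineOpen.SpecMap_appLE_fromSpec _ hW hP, ← Category.assoc, hθ, chartMap_snd]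
    intro b
    have := congrArg (fun f => f.hom b) e
    simpa using this

end Chart

end Fermat.Agent.AV.Upb43
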