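/-
Fermat/Agent/AV/Upb43/BoxGeom.lean  (helper43)

Programme AV (S26/S27), brick UPB, geometry: the `K`-algebra structure on function fields, and the
tensor chart lemma in function-field form.
-/
import Mathlib
import Fermat.Agent.AV.PicDiv86.Pullback
import Fermat.Agent.AV.Upb43.TensorChart
import Fermat.Agent.AV.Upb43.AlgBoxStep

set_option autoImplicit false

universe u

open CategoryTheory CategoryTheory.Limits AlgebraicGeometry TensorProduct

namespace Fermat.Agent.AV.Upb43

open Fermat.Agent.Jac (sectionsRingHom sectionsAlgebra)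
open Fermat.Agent.AV.PicDiv86

variable {K : Type u} [Field K]

section Algebra

/-- If `t` is transcendental, a relation `∑ t ^ d ⊗ r_d = 0` forces `r_d = 0`. -/
theorem tmul_pow_eq_zero {A B : Type*} [CommRing A] [CommRing B] [Algebra K A] [Algebra K B]
    (t : A) (ht : Function.Injective (Polynomial.aeval t : Polynomial K →ₐ[K] A)) (n : ℕ)
    (r : Fin n → B) (h : ∑ d : Fin n, (t ^ (d : ℕ)) ⊗ₜ[K] r d = 0) : ∀ d, r d = 0 := by
  have hj : Function.Injective
      (LinearMap.rTensor B (Polynomial.aeval t : Polynomial K →ₐ[K] A).toLinearMap) :=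
    Module.Flat.rTensor_preserves_injective_linearMap _ ht
  have h0 : ∑ d : Fin n, ((Polynomial.X : Polynomial K) ^ (d : ℕ)) ⊗ₜ[K] r d = 0 := by
    apply hj
    rw [map_sum, map_zero, ← h]
    refine Finset.sum_congr rfl fun d _ => ?_
    simp
  intro d0
  have := congrArg (fun z => TensorProduct.lid K B
    (LinearMap.rTensor B (Polynomial.lcoeff K (d0 : ℕ)) z)) h0
  simp only [map_sum, LinearMap.rTensor_tmul, Polynomial.lcoeff_apply, Polynomial.coeff_X_pow,
    TensorProduct.lid_tmul, map_zero] at this
  rw [Finset.sum_eq_single d0] at this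
  · simpa using this
  · intro d _ hd
    have : ¬ ((d0 : ℕ) = (d : ℕ)) := fun h => hd (Fin.ext h.symm)
    simp [this]
  · intro h; exact absurd (Finset.mem_univ _) h

end Algebra

section KStruct

theorem sectionsRingHom_res {X : Scheme.{u}} (x : X ⟶ Spec (CommRingCat.of K))
    (U : X.Opens) (a : K) :
    sectionsRingHom x U a =
      X.presheaf.map (homOfLE (le_top : U ≤ ⊤)).op (sectionsRingHom x ⊤ a) := by
  simp only [sectionsRingHom, CommRingCat.hom_comp, RingHom.coe_comp, Function.comp_apply]
  have : X.presheaf.map (homOfLE (le_top : (⊤ : X.Opens) ≤ ⊤)).op = 𝟙 _ := by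
    rw [← X.presheaf.map_id]; rfl
  rw [this]
  rfl

variable {X : Scheme.{u}} [IsIntegral X] (x : X ⟶ Spec (CommRingCat.of K))

instance nonempty_top_opens : Nonempty (⊤ : X.Opens) := ⟨⟨genericPoint X, trivial⟩⟩

/-- The structure map `K → K(X)`. -/
noncomputable def kToFF : K →+* X.functionField :=
  (X.germToFunctionField ⊤).hom.comp (sectionsRingHom x ⊤)

theorem kToFF_eq (U : X.Opens) [Nonempty U] (a : K) :
    kToFF x a = X.germToFunctionField U (sectionsRingHom x U a) := by
  rw [sectionsRingHom_res, germToFunctionField_res]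
  rfl

/-- The `K`-algebra structure on the function field (to be activated with `letI`). -/
@[reducible] noncomputable def ffAlgebra : Algebra K X.functionField := (kToFF x).toAlgebra

/-- The ring of functions regular on `U`, as a `K`-subalgebra of the function field. -/
noncomputable def regularOnAlg (U : Set X) :
    letI := ffAlgebra x
    Subalgebra K X.functionField :=
  letI := ffAlgebra x
  { regularOn X U with
    algebraMap_mem' := fun a => by
      change kToFF x a ∈ regularOn X U
      exact regularOn_anti (Set.subset_univ U)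
        (by
          have : kToFF x a ∈ regularOn X ((⊤ : X.Opens) : Set X) :=
            germToFunctionField_mem_regularOn _
          simpa using this) }

theorem mem_regularOnAlg {U : Set X} {f : X.functionField} :
    letI := ffAlgebra x
    f ∈ regularOnAlg x U ↔ f ∈ regularOn X U := Iff.rfl

/-- Dominant morphisms over `K` induce `K`-algebra maps of function fields. -/
theorem functionFieldMap_kToFF {X' : Scheme.{u}} [IsIntegral X'] (φ : X' ⟶ X) [IsDominant φ]
    (a : K) : functionFieldMap φ (kToFF x a) = kToFF (φ ≫ x) a := by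
  unfold kToFF
  simp only [RingHom.coe_comp, Function.comp_apply]
  erw [functionFieldMap_germ φ ⊤ (sectionsRingHom x ⊤ a)]
  congr 1
  simp only [sectionsRingHom, CommRingCat.hom_comp, RingHom.coe_comp, Function.comp_apply]
  have h1 : X.presheaf.map (homOfLE (le_top : (⊤ : X.Opens) ≤ ⊤)).op = 𝟙 _ := by
    rw [← X.presheaf.map_id]; rfl
  have h2 : X'.presheaf.map (homOfLE (le_top : (⊤ : X'.Opens) ≤ ⊤)).op = 𝟙 _ := by
    rw [← X'.presheaf.map_id]; rfl
  rw [h1, h2]
  rfl

end KStruct

section Box

variable {C Y : Scheme.{u}} [IsIntegral C] [IsIntegral Y]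
  (c : C ⟶ Spec (CommRingCat.of K)) (y : Y ⟶ Spec (CommRingCat.of K))
  [IsIntegral (pullback c y)] [IsDominant (pullback.fst c y)] [IsDominant (pullback.snd c y)]

/-- The box over nonempty opens is nonempty. -/
instance nonempty_boxOpen (U : C.Opens) (W : Y.Opens) [Nonempty U] [Nonempty W] :
    Nonempty (boxOpen c y U W) :=
  ⟨⟨genericPoint _, genericPoint_mem_preimage (pullback.fst c y) U,
    genericPoint_mem_preimage (pullback.snd c y) W⟩⟩

theorem germ_appLE_fst (U : C.Opens) (W : Y.Opens) [Nonempty U] [Nonempty W] (a : Γ(C, U)) :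
    (pullback c y).germToFunctionField (boxOpen c y U W)
      (((pullback.fst c y).appLE U (boxOpen c y U W) (boxOpen_le_fst c y U W)).hom a) =
    functionFieldMap (pullback.fst c y) (C.germToFunctionField U a) := by
  rw [functionFieldMap_germ]
  exact germToFunctionField_res (boxOpen_le_fst c y U W) _

theorem germ_appLE_snd (U : C.Opens) (W : Y.Opens) [Nonempty U] [Nonempty W] (b : Γ(Y, W)) :
    (pullback c y).germToFunctionField (boxOpen c y U W)
      (((pullback.snd c y).appLE W (boxOpen c y U W) (boxOpen_le_snd c y U W)).hom b) =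
    functionFieldMap (pullback.snd c y) (Y.germToFunctionField W b) := by
  rw [functionFieldMap_germ]
  exact germToFunctionField_res (boxOpen_le_snd c y U W) _

theorem map_fst_mem_box {U : C.Opens} (W : Y.Opens) {b : C.functionField}
    (hb : b ∈ regularOn C (U : Set C)) :
    functionFieldMap (pullback.fst c y) b ∈
      regularOn (pullback c y) (boxOpen c y U W : Set ↥(pullback c y)) :=
  regularOn_anti (fun _ h => h.1) (functionFieldMap_mem_regularOn (pullback.fst c y) hb)

theorem map_snd_mem_box (U : C.Opens) {W : Y.Opens} {b : Y.functionField}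
    (hb : b ∈ regularOn Y (W : Set Y)) :
    functionFieldMap (pullback.snd c y) b ∈
      regularOn (pullback c y) (boxOpen c y U W : Set ↥(pullback c y)) :=
  regularOn_anti (fun _ h => h.2) (functionFieldMap_mem_regularOn (pullback.snd c y) hb)

variable {U : C.Opens} {W : Y.Opens} (hU : IsAffineOpen U) (hW : IsAffineOpen W)
  [Nonempty U] [Nonempty W]

include hU hW in
/-- Functions regular on a box are sums of products. -/
theorem regularOn_box_subset_span {f : (pullback c y).functionField}
    (hf : f ∈ regularOn (pullback c y) (boxOpen c y U W : Set ↥(pullback c y))) :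
    f ∈ Submodule.span ℤ (Set.image2
      (fun b r => functionFieldMap (pullback.fst c y) b * functionFieldMap (pullback.snd c y) r)
      (regularOn C (U : Set C) : Set C.functionField)
      (regularOn Y (W : Set Y) : Set Y.functionField)) := by
  letI := sectionsAlgebra c U
  letI := sectionsAlgebra y W
  obtain ⟨ψ, h1, h2⟩ := exists_tensorEquiv c y hU hW rfl rfl
  obtain ⟨g, rfl⟩ := mem_regularOn_iff.1 hf
  have key : ∀ z : Γ(C, U) ⊗[K] Γ(Y, W),
      (pullback c y).germToFunctionField (boxOpen c y U W) (ψ.symm z) ∈
      Submodule.span ℤ (Set.image2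
      (fun b r => functionFieldMap (pullback.fst c y) b * functionFieldMap (pullback.snd c y) r)
      (regularOn C (U : Set C) : Set C.functionField)
      (regularOn Y (W : Set Y) : Set Y.functionField)) := by
    intro z
    induction z using TensorProduct.induction_on with
    | zero => simp
    | tmul a b =>
      have e : ψ.symm (a ⊗ₜ[K] b) =
          ((pullback.fst c y).appLE U (boxOpen c y U W) (boxOpen_le_fst c y U W)).hom a *
          ((pullback.snd c y).appLE W (boxOpen c y U W) (boxOpen_le_snd c y U W)).hom b := by
        rw [RingEquiv.symm_apply_eq, map_mul, h1, h2, Algebra.TensorProduct.tmul_mul_tmul,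
          mul_one, one_mul]
      rw [e, map_mul, germ_appLE_fst, germ_appLE_snd]
      exact Submodule.subset_span ⟨_, germToFunctionField_mem_regularOn _,
        _, germToFunctionField_mem_regularOn _, rfl⟩
    | add z z' hz hz' =>
      rw [map_add, map_add]
      exact Submodule.add_mem _ hz hz'
  have := key (ψ g)
  rwa [RingEquiv.symm_apply_apply] at this

include hU hW in
/-- Injectivity of `Γ(C, U) ⊗ Γ(Y, W) → K(C ×ₖ Y)` along powers of a transcendental element. -/
theorem box_inj (t' : Γ(C, U))
    (ht' : letI := sectionsAlgebra c U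
      Function.Injective (Polynomial.aeval t' : Polynomial K →ₐ[K] Γ(C, U)))
    (n : ℕ) (r : Fin n → Y.functionField) (hr : ∀ d, r d ∈ regularOn Y (W : Set Y))
    (h : ∑ d : Fin n, functionFieldMap (pullback.fst c y) (C.germToFunctionField U t') ^ (d : ℕ) *
      functionFieldMap (pullback.snd c y) (r d) = 0) : ∀ d, r d = 0 := by
  letI := sectionsAlgebra c U
  letI := sectionsAlgebra y W
  obtain ⟨ψ, h1, h2⟩ := exists_tensorEquiv c y hU hW rfl rfl
  choose r' hr' using fun d => mem_regularOn_iff.1 (hr d)
  have h3 : (pullback c y).germToFunctionField (boxOpen c y U W)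
      (∑ d : Fin n,
        ((pullback.fst c y).appLE U (boxOpen c y U W) (boxOpen_le_fst c y U W)).hom t' ^ (d : ℕ) *
        ((pullback.snd c y).appLE W (boxOpen c y U W) (boxOpen_le_snd c y U W)).hom (r' d)) = 0 := by
    rw [map_sum, ← h]
    refine Finset.sum_congr rfl fun d _ => ?_
    rw [map_mul, map_pow, germ_appLE_fst, germ_appLE_snd, hr']
  have h4 := (Scheme.germToFunctionField_injective (pullback c y) (boxOpen c y U W))
    (h3.trans (map_zero _).symm)
  have h5 := congrArg ψ h4
  rw [map_sum, map_zero] at h5
  have h6 : ∑ d : Fin n, (t' ^ (d : ℕ)) ⊗ₜ[K] r' d = 0 := by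
    rw [← h5]
    refine Finset.sum_congr rfl fun d _ => ?_
    rw [map_mul, map_pow, h1, h2, Algebra.TensorProduct.tmul_pow, one_pow,
      Algebra.TensorProduct.tmul_mul_tmul, mul_one, one_mul]
  intro d
  rw [← hr' d, tmul_pow_eq_zero t' ht' n r' h6 d, map_zero]

include hU hW in
/-- The function field of the product is the fraction field of the ring of a box. -/
theorem box_frac (z : (pullback c y).functionField) :
    ∃ a ∈ regularOn (pullback c y) (boxOpen c y U W : Set ↥(pullback c y)),
    ∃ b ∈ regularOn (pullback c y) (boxOpen c y U W : Set ↥(pullback c y)),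
      b ≠ 0 ∧ z * b = a := by
  letI := sectionsAlgebra c U
  letI := sectionsAlgebra y W
  have hP := isAffineOpen_boxOpen c y hU hW rfl rfl
  have := functionField_isFractionRing_of_isAffineOpen (pullback c y) (boxOpen c y U W) hP
  obtain ⟨⟨a, b⟩, hab⟩ := IsLocalization.surj (nonZeroDivisors Γ(pullback c y, boxOpen c y U W)) z
  refine ⟨_, germToFunctionField_mem_regularOn a,
    _, germToFunctionField_mem_regularOn b.1, ?_, hab⟩
  intro h0
  have : (b : Γ(pullback c y, boxOpen c y U W)) = 0 :=
    (Scheme.germToFunctionField_injective (pullback c y) (boxOpen c y U W))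
      (h0.trans (map_zero _).symm)
  exact nonZeroDivisors.ne_zero b.2 this

end Box

end Fermat.Agent.AV.Upb43
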