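/-
Fermat/Agent/AV/Upb43/GeoBox.lean  (helper43)

Programme AV (S26/S27), brick UPB, geometry: box charts on an integral `K`-scheme, the resulting
bound `h⁰(m D) ≤ C m ^ N` for effective Cartier divisors, and the base case `Spec K`.
-/
import Mathlib
import Fermat.Agent.AV.Upb43.BoxGeom
import Fermat.Agent.AV.Upb43.DivBound

set_option autoImplicit false

universe u

open CategoryTheory CategoryTheory.Limits AlgebraicGeometry TensorProduct Module

namespace Fermat.Agent.AV.Upb43

open Fermat.Agent.Jac (sectionsRingHom sectionsAlgebra)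
open Fermat.Agent.AV.PicDiv86

variable {K : Type u} [Field K]

/-- Box charts on an integral `K`-scheme: nonempty affine opens `X0`, `Xi i` whose rings of
functions form algebraic box data in the function field. -/
structure GeoBox {X : Scheme.{u}} [IsIntegral X] (x : X ⟶ Spec (CommRingCat.of K))
    (σ : Type) where
  X0 : X.Opens
  affine0 : IsAffineOpen X0
  ne0 : Nonempty X0
  Xi : σ → X.Opens
  affinei : ∀ i, IsAffineOpen (Xi i)
  nei : ∀ i, Nonempty (Xi i)
  bx : @AlgBox K X.functionField _ _ (ffAlgebra x) σ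
  R0_eq : letI := ffAlgebra x
    ∀ f, f ∈ bx.R0 ↔ f ∈ regularOn X (X0 : Set X)
  Ri_eq : letI := ffAlgebra x
    ∀ i f, f ∈ bx.R i ↔ f ∈ regularOn X (Xi i : Set X)

section Bound

variable {X : Scheme.{u}} [IsIntegral X] {x : X ⟶ Spec (CommRingCat.of K)} {σ : Type}
  [Fintype σ]

/-- **UPB, geometric form.**  On an integral `K`-scheme with box charts indexed by `σ`, the
spaces of sections of the multiples of an effective Cartier divisor grow at most like
`m ^ (card σ)`. -/
theorem GeoBox.exists_finrank_le (gb : GeoBox x σ) {D : CaDiv X} (hD : D.IsEffective) :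
    letI := ffAlgebra x
    ∃ C : ℕ, ∀ (m : ℕ) (W : Submodule K X.functionField), 1 ≤ m →
      (∀ f ∈ W, f ∈ (D ^ m).H0) →
      Module.Finite K W ∧ finrank K W ≤ C * m ^ Fintype.card σ := by
  letI := ffAlgebra x
  have := gb.ne0
  have := gb.nei
  obtain ⟨h0, h0ne, -, h0D⟩ := exists_mul_pow_mem_regularOn hD gb.affine0
  choose h hne _ hiD using fun i => exists_mul_pow_mem_regularOn hD (gb.affinei i)
  obtain ⟨C, hC⟩ := gb.bx.exists_finrank_le (fun i => h0 * (h i)⁻¹)
  refine ⟨C, fun m W hm hW => ?_⟩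
  have hinj : Function.Injective (LinearMap.mulLeft K (h0 ^ m) : X.functionField →ₗ[K] _) := by
    intro a b hab
    exact mul_left_cancel₀ (pow_ne_zero m h0ne) hab
  obtain ⟨h1, h2⟩ := hC m (W.map (LinearMap.mulLeft K (h0 ^ m))) hm (by
    rintro _ ⟨f, hf, rfl⟩
    have hfD := hW f hf
    refine ⟨(gb.R0_eq _).2 ?_, fun i => ⟨f * h i ^ m, (gb.Ri_eq i _).2 (hiD i m f hfD), ?_⟩⟩
    · rw [LinearMap.mulLeft_apply, mul_comm]
      exact h0D m f hfD
    · rw [LinearMap.mulLeft_apply, mul_pow, inv_pow]
      field_simp [hne i])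
  let e : W ≃ₗ[K] W.map (LinearMap.mulLeft K (h0 ^ m)) := Submodule.equivMapOfInjective _ hinj W
  exact ⟨Module.Finite.equiv e.symm, by rw [e.finrank_eq]; exact h2⟩

end Bound

section Base

/-- The structure map `K → K(Spec K)` is surjective. -/
theorem kToFF_id_surjective :
    Function.Surjective (kToFF (𝟙 (Spec (CommRingCat.of K)))) := by
  have hT : IsAffineOpen (⊤ : (Spec (CommRingCat.of K)).Opens) := isAffineOpen_top _
  have := functionField_isFractionRing_of_isAffineOpen (Spec (CommRingCat.of K)) ⊤ hT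
  have hfield : IsField Γ(Spec (CommRingCat.of K), ⊤) :=
    MulEquiv.isField (Field.toIsField K) (Scheme.ΓSpecIso (CommRingCat.of K)).commRingCatIsoToRingEquiv.toMulEquiv
  have hsurj : Function.Surjective
      (algebraMap Γ(Spec (CommRingCat.of K), ⊤) (Spec (CommRingCat.of K)).functionField) :=
    (IsFractionRing.surjective_iff_isField).2 hfield
  intro z
  obtain ⟨s, rfl⟩ := hsurj z
  refine ⟨(Scheme.ΓSpecIso (CommRingCat.of K)).hom s, ?_⟩
  unfold kToFF
  simp only [RingHom.coe_comp, Function.comp_apply]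
  congr 1
  simp only [sectionsRingHom, CommRingCat.hom_comp, RingHom.coe_comp, Function.comp_apply]
  have h1 : (Spec (CommRingCat.of K)).presheaf.map
      (homOfLE (le_top : (⊤ : (Spec (CommRingCat.of K)).Opens) ≤ ⊤)).op = 𝟙 _ := by
    rw [← (Spec (CommRingCat.of K)).presheaf.map_id]; rfl
  rw [h1]
  simp

/-- Base case: `Spec K` has box charts with no coordinates. -/
noncomputable def GeoBox.base (σ : Type) [IsEmpty σ] :
    GeoBox (𝟙 (Spec (CommRingCat.of K))) σ where
  X0 := ⊤
  affine0 := isAffineOpen_top _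
  ne0 := inferInstance
  Xi := isEmptyElim
  affinei := isEmptyElim
  nei := isEmptyElim
  bx := @AlgBox.ofSurjective K _ _ _ (ffAlgebra (𝟙 (Spec (CommRingCat.of K))))
    kToFF_id_surjective σ _
  R0_eq f := by
    letI := ffAlgebra (𝟙 (Spec (CommRingCat.of K)))
    refine ⟨fun _ => ?_, fun _ => Algebra.mem_top⟩
    obtain ⟨a, rfl⟩ := kToFF_id_surjective f
    exact germToFunctionField_mem_regularOn _
  Ri_eq := isEmptyElim

end Base

end Fermat.Agent.AV.Upb43
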