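/-
Fermat/Agent/AV/Upb43/CurveBox.lean  (helper43)

Programme AV (S26/S27), brick UPB, geometry: the two-chart data of a curve in function-field
form, and the inductive step `Y ↦ C ×ₖ Y` for box charts.
-/
import Mathlib
import Fermat.Agent.Jac.CurveCharts
import Fermat.Agent.Jac.CurveHyp80.Algebra
import Fermat.Agent.AV.Upb43.GeoBox

set_option autoImplicit false

universe u

open CategoryTheory CategoryTheory.Limits AlgebraicGeometry TensorProduct Module

namespace Fermat.Agent.AV.Upb43

open Fermat.Agent.Jac (sectionsRingHom sectionsAlgebra CurveCharts)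
open Fermat.Agent.AV.PicDiv86

variable {K : Type u} [Field K]

/-- Two-chart data of a curve, in function-field form. -/
structure CurveBox {C : Scheme.{u}} [IsIntegral C] (c : C ⟶ Spec (CommRingCat.of K)) where
  U0 : C.Opens
  U1 : C.Opens
  affine0 : IsAffineOpen U0
  affine1 : IsAffineOpen U1
  ne0 : Nonempty U0
  ne1 : Nonempty U1
  t : Γ(C, U0)
  s : Γ(C, U1)
  ts : C.germToFunctionField U0 t * C.germToFunctionField U1 s = 1
  inj_t : letI := sectionsAlgebra c U0
    Function.Injective (Polynomial.aeval t : Polynomial K →ₐ[K] Γ(C, U0))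
  SC0 : Finset C.functionField
  SC1 : Finset C.functionField
  SC0_mem : ∀ x ∈ SC0, x ∈ regularOn C (U0 : Set C)
  span0 : letI := ffAlgebra c
    ∀ b ∈ regularOn C (U0 : Set C), b ∈ Submodule.span
      (Algebra.adjoin K ({C.germToFunctionField U0 t} : Set C.functionField))
      (SC0 : Set C.functionField)
  span1 : letI := ffAlgebra c
    ∀ b ∈ regularOn C (U1 : Set C), b ∈ Submodule.span
      (Algebra.adjoin K ({C.germToFunctionField U1 s} : Set C.functionField))
      (SC1 : Set C.functionField)

section OfFinite

variable {C : Scheme.{u}} [IsIntegral C] (c : C ⟶ Spec (CommRingCat.of K))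

/-- The germ map as a `K`-algebra homomorphism. -/
noncomputable def germAlg (U : C.Opens) [Nonempty U] :
    letI := sectionsAlgebra c U
    letI := ffAlgebra c
    Γ(C, U) →ₐ[K] C.functionField :=
  letI := sectionsAlgebra c U
  letI := ffAlgebra c
  { (C.germToFunctionField U).hom with
    commutes' := fun a => (kToFF_eq c U a).symm }

open Polynomial in
/-- A chart ring which is finite over `K[t]` lies in a finitely generated `K[t]`-submodule of
the function field. -/
theorem exists_finset_span_of_finite (U : C.Opens) [Nonempty U] (t : Γ(C, U))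
    (hfin : letI := sectionsAlgebra c U
      Module.Finite K[X] (Module.AEval K Γ(C, U) t)) :
    letI := ffAlgebra c
    ∃ S : Finset C.functionField, (∀ x ∈ S, x ∈ regularOn C (U : Set C)) ∧
      ∀ b ∈ regularOn C (U : Set C), b ∈ Submodule.span
        (Algebra.adjoin K ({C.germToFunctionField U t} : Set C.functionField))
        (S : Set C.functionField) := by
  classical
  letI := sectionsAlgebra c U
  letI := ffAlgebra c
  obtain ⟨S', hS'⟩ := hfin.fg_top
  let g : Module.AEval K Γ(C, U) t → C.functionField :=
    fun m => germAlg c U ((Module.AEval.of K Γ(C, U) t).symm m)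
  refine ⟨S'.image g, ?_, ?_⟩
  · intro x hx
    obtain ⟨m, -, rfl⟩ := Finset.mem_image.1 hx
    exact germToFunctionField_mem_regularOn _
  · intro b hb
    obtain ⟨b', rfl⟩ := mem_regularOn_iff.1 hb
    have key : ∀ m ∈ Submodule.span K[X] (S' : Set (Module.AEval K Γ(C, U) t)),
        g m ∈ Submodule.span
          (Algebra.adjoin K ({C.germToFunctionField U t} : Set C.functionField))
          ((S'.image g : Finset C.functionField) : Set C.functionField) := by
      intro m hm
      induction hm using Submodule.span_induction with
      | mem m hm => exact Submodule.subset_span (Finset.mem_coe.2 (Finset.mem_image_of_mem g hm))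
      | zero => simp [g]
      | add x y _ _ hx hy =>
        have : g (x + y) = g x + g y := by simp [g]
        rw [this]; exact Submodule.add_mem _ hx hy
      | smul p m _ hm =>
        have h1 : g (p • m) = (Polynomial.aeval (C.germToFunctionField U t) p) * g m := by
          have : (Module.AEval.of K Γ(C, U) t).symm (p • m) =
              Polynomial.aeval t p * (Module.AEval.of K Γ(C, U) t).symm m := by
            apply (Module.AEval.of K Γ(C, U) t).injective
            rw [LinearEquiv.apply_symm_apply, ← smul_eq_mul, Module.AEval.of_aeval_smul,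
              LinearEquiv.apply_symm_apply]
          simp only [g]
          rw [this, map_mul, ← Polynomial.aeval_algHom_apply]
          rfl
        rw [h1]
        exact Submodule.smul_mem _
          (⟨_, Polynomial.aeval_mem_adjoin_singleton K _⟩ :
            Algebra.adjoin K ({C.germToFunctionField U t} : Set C.functionField)) hm
    have := key (Module.AEval.of K Γ(C, U) t b') (hS' ▸ Submodule.mem_top)
    simp only [g, LinearEquiv.symm_apply_apply] at this
    exact this

open NeronModelInfra in
/-- The two-chart data of the S25 programme give a `CurveBox`. -/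
theorem nonempty_curveBox {ε : SchemeHomOver (𝟙 (Spec (CommRingCat.of K))) c}
    (cc : CurveCharts c ε) : Nonempty (CurveBox c) := by
  have hne : ∀ U : C.Opens, Nontrivial Γ(C, U) → Nonempty U := by
    intro U hU
    by_contra h
    have hU' : U = ⊥ := by
      ext x
      simp only [TopologicalSpace.Opens.coe_bot, Set.mem_empty_iff_false, iff_false]
      exact fun hx => h ⟨⟨x, hx⟩⟩
    subst hU'
    exact not_subsingleton Γ(C, (⊥ : C.Opens)) inferInstance
  have := cc.dedekind0
  have := cc.dedekind1
  have ne0 : Nonempty cc.U0 := hne _ inferInstance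
  have ne1 : Nonempty cc.U1 := hne _ inferInstance
  have hgen : ∀ U : C.Opens, Nonempty U → genericPoint C ∈ U := fun U hU =>
    ((genericPoint_spec C).mem_open_set_iff U.isOpen).2 (by simpa using hU)
  have ne01 : Nonempty (cc.U0 ⊓ cc.U1 : C.Opens) :=
    ⟨⟨genericPoint C, hgen _ ne0, hgen _ ne1⟩⟩
  obtain ⟨S0, hS0, hspan0⟩ := exists_finset_span_of_finite c cc.U0 cc.t cc.finite0
  obtain ⟨S1, -, hspan1⟩ := exists_finset_span_of_finite c cc.U1 cc.s cc.finite1
  refine ⟨
    { U0 := cc.U0
      U1 := cc.U1
      affine0 := cc.affine0
      affine1 := cc.affine1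
      ne0 := ne0
      ne1 := ne1
      t := cc.t
      s := cc.s
      ts := ?_
      inj_t := ?_
      SC0 := S0
      SC1 := S1
      SC0_mem := hS0
      span0 := hspan0
      span1 := hspan1 }⟩
  · have h := congrArg (C.germToFunctionField (cc.U0 ⊓ cc.U1)) cc.ts
    rw [map_mul, map_one] at h
    rw [← h]
    congr 1
    · exact (germToFunctionField_res (inf_le_left : cc.U0 ⊓ cc.U1 ≤ cc.U0) cc.t).symm
    · exact (germToFunctionField_res (inf_le_right : cc.U0 ⊓ cc.U1 ≤ cc.U1) cc.s).symm
  · letI := sectionsAlgebra c cc.U0
    haveI := cc.free0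
    exact Fermat.Agent.Jac.CurveHyp80.aeval_injective cc.t

end OfFinite

end Fermat.Agent.AV.Upb43
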