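/-
Fermat/Agent/AV/Upb43/GeoStep.lean  (helper43)

Programme AV (S26/S27), brick UPB, geometry: the inductive step `Y ↦ C ×ₖ Y` for box charts.
-/
import Mathlib
import Fermat.Agent.AV.Upb43.CurveBox

set_option autoImplicit false

universe u

open CategoryTheory CategoryTheory.Limits AlgebraicGeometry TensorProduct Module

namespace Fermat.Agent.AV.Upb43

open Fermat.Agent.Jac (sectionsRingHom sectionsAlgebra)
open Fermat.Agent.AV.PicDiv86

variable {K : Type u} [Field K]

theorem span_int_le_span {F : Type*} [Field F] [Algebra K F] {S : Set F} {x : F}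
    (hx : x ∈ Submodule.span ℤ S) : x ∈ Submodule.span K S := by
  induction hx using Submodule.span_induction with
  | mem x hx => exact Submodule.subset_span hx
  | zero => exact Submodule.zero_mem _
  | add x y _ _ hx hy => exact Submodule.add_mem _ hx hy
  | smul n x _ hx =>
    rw [← Int.cast_smul_eq_zsmul K n x]
    exact Submodule.smul_mem _ _ hx

section Step

variable {C Y : Scheme.{u}} [IsIntegral C] [IsIntegral Y]
  (c : C ⟶ Spec (CommRingCat.of K)) (y : Y ⟶ Spec (CommRingCat.of K))
  [IsIntegral (pullback c y)] [IsDominant (pullback.fst c y)] [IsDominant (pullback.snd c y)]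

/-- Pull-back of rational functions along the first projection, as a `K`-algebra map. -/
noncomputable def fstAlg :
    letI := ffAlgebra c
    letI := ffAlgebra (pullback.fst c y ≫ c)
    C.functionField →ₐ[K] (pullback c y).functionField :=
  letI := ffAlgebra c
  letI := ffAlgebra (pullback.fst c y ≫ c)
  { functionFieldMap (pullback.fst c y) with
    commutes' := fun a => functionFieldMap_kToFF c (pullback.fst c y) a }

/-- Pull-back of rational functions along the second projection, as a `K`-algebra map. -/
noncomputable def sndAlg :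
    letI := ffAlgebra y
    letI := ffAlgebra (pullback.fst c y ≫ c)
    Y.functionField →ₐ[K] (pullback c y).functionField :=
  letI := ffAlgebra y
  letI := ffAlgebra (pullback.fst c y ≫ c)
  { functionFieldMap (pullback.snd c y) with
    commutes' := fun a => by
      have h := functionFieldMap_kToFF y (pullback.snd c y) a
      rw [← pullback.condition] at h
      exact h }

variable {σ : Type}

/-- **Inductive step**: box charts on `Y` and two-chart data on the curve `C` give box charts
on `C ×ₖ Y` with one more coordinate. -/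
noncomputable def GeoBox.step (cb : CurveBox c) (gb : GeoBox y σ) :
    GeoBox (pullback.fst c y ≫ c) (Option σ) :=
  letI := ffAlgebra c
  letI := ffAlgebra y
  letI := ffAlgebra (pullback.fst c y ≫ c)
  letI := sectionsAlgebra c cb.U0
  letI := sectionsAlgebra c cb.U1
  letI := sectionsAlgebra y gb.X0
  haveI := cb.ne0
  haveI := cb.ne1
  haveI := gb.ne0
  haveI := gb.nei
  { X0 := boxOpen c y cb.U0 gb.X0
    affine0 := isAffineOpen_boxOpen c y cb.affine0 gb.affine0 rfl rfl
    ne0 := inferInstance
    Xi := fun o => o.elim (boxOpen c y cb.U1 gb.X0) (fun j => boxOpen c y cb.U0 (gb.Xi j))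
    affinei := by
      rintro (_ | j)
      · exact isAffineOpen_boxOpen c y cb.affine1 gb.affine0 rfl rfl
      · letI := sectionsAlgebra y (gb.Xi j)
        exact isAffineOpen_boxOpen c y cb.affine0 (gb.affinei j) rfl rfl
    nei := by
      rintro (_ | j)
      · exact nonempty_boxOpen c y cb.U1 gb.X0
      · exact nonempty_boxOpen c y cb.U0 (gb.Xi j)
    bx := AlgBox.step gb.bx (fstAlg c y) (sndAlg c y)
      (regularOnAlg c (cb.U0 : Set C)) (regularOnAlg c (cb.U1 : Set C))
      (C.germToFunctionField cb.U0 cb.t) (C.germToFunctionField cb.U1 cb.s)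
      (germToFunctionField_mem_regularOn cb.t) cb.ts cb.SC0 cb.SC1 cb.SC0_mem
      cb.span0 cb.span1
      (regularOnAlg (pullback.fst c y ≫ c) (boxOpen c y cb.U0 gb.X0 : Set ↥(pullback c y)))
      (regularOnAlg (pullback.fst c y ≫ c) (boxOpen c y cb.U1 gb.X0 : Set ↥(pullback c y)))
      (fun j => regularOnAlg (pullback.fst c y ≫ c)
        (boxOpen c y cb.U0 (gb.Xi j) : Set ↥(pullback c y)))
      (fun x hx => Submodule.span_mono
        (by
          rintro _ ⟨b, hb, r, hr, rfl⟩
          exact ⟨b, hb, r, (gb.R0_eq r).2 hr, rfl⟩)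
        (span_int_le_span (regularOn_box_subset_span c y cb.affine0 gb.affine0 hx)))
      (fun b hb => map_fst_mem_box c y gb.X0 hb)
      (fun r hr => map_snd_mem_box c y cb.U0 ((gb.R0_eq r).1 hr))
      (fun x hx => Submodule.span_mono
        (by
          rintro _ ⟨b, hb, r, hr, rfl⟩
          exact ⟨b, hb, r, (gb.R0_eq r).2 hr, rfl⟩)
        (span_int_le_span (regularOn_box_subset_span c y cb.affine1 gb.affine0 hx)))
      (fun j x hx => Submodule.span_mono
        (by
          rintro _ ⟨b, hb, r, hr, rfl⟩
          exact ⟨b, hb, r, (gb.Ri_eq j r).2 hr, rfl⟩)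
        (span_int_le_span (regularOn_box_subset_span c y cb.affine0 (gb.affinei j) hx)))
      (box_frac c y cb.affine0 gb.affine0)
      (fun n r hr h => box_inj c y cb.affine0 gb.affine0 cb.t cb.inj_t n r
        (fun d => (gb.R0_eq _).1 (hr d)) h)
    R0_eq := fun _ => Iff.rfl
    Ri_eq := by
      rintro (_ | j) f <;> exact Iff.rfl }

end Step

end Fermat.Agent.AV.Upb43
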