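/-
Fermat/Agent/AV/Upb43/Main.lean  (helper43)

Programme AV (S26/S27), brick UPB, final form: on a product `V = C₁ ×ₖ ⋯ ×ₖ C_N` of pointed smooth
proper curves over an algebraically closed field (in the shape `Curv33.prodObj l`), the spaces of
sections of the multiples of an effective Cartier divisor satisfy `h⁰(V, m D) ≤ C m ^ N`.
-/
import Mathlib
import Fermat.Agent.AV.Upb43.GeoStep
import Fermat.Agent.AV.Curv33.Iface
import Fermat.Agent.Jac.FiniteToLine80.Main
import Fermat.Agent.Jac.GeomAlgClosed32.Geometric

set_option autoImplicit false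

universe u

open CategoryTheory CategoryTheory.Limits AlgebraicGeometry Module NeronModelInfra

namespace Fermat.Agent.AV.Upb43

open Fermat.Agent.AV.PicDiv86 Fermat.Agent.AV.Curv33

variable {K : Type u} [Field K]

/-- A morphism from a nonempty scheme to the spectrum of a field is surjective. -/
theorem surjective_to_spec_field {X : Scheme.{u}} [Nonempty X]
    (x : X ⟶ Spec (CommRingCat.of K)) : Surjective x :=
  ⟨Function.surjective_to_subsingleton (α := X) (β := Spec (CommRingCat.of K)) _⟩

variable [IsAlgClosed K] {A : Scheme.{u}} {f : A ⟶ Spec (CommRingCat.of K)}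
  {e : SchemeHomOver (𝟙 (Spec (CommRingCat.of K))) f}

/-- Products of pointed curves over an algebraically closed field are integral. -/
theorem isIntegral_prodObj (l : List (CurveTo f e)) : IsIntegral (prodObj l) := by
  induction l with
  | nil => exact inferInstanceAs (IsIntegral (Spec (CommRingCat.of K)))
  | cons X l ih =>
    exact Fermat.Agent.Jac.GeomAlgClosed32.isIntegral_pullback_of_isAlgClosed X.c (prodHom l)

/-- Products of pointed curves have box charts. -/
theorem exists_geoBox_prodObj (l : List (CurveTo f e)) :
    ∃ (hI : IsIntegral (prodObj l)) (σ : Type) (_ : Fintype σ),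
      Fintype.card σ = l.length ∧ Nonempty (@GeoBox K _ (prodObj l) hI (prodHom l) σ) := by
  induction l with
  | nil =>
    exact ⟨inferInstanceAs (IsIntegral (Spec (CommRingCat.of K))), PEmpty, inferInstance,
      by simp, ⟨GeoBox.base PEmpty⟩⟩
  | cons X l ih =>
    obtain ⟨hI, σ, hσ, hcard, ⟨gb⟩⟩ := ih
    have hV : IsIntegral (pullback X.c (prodHom l)) :=
      Fermat.Agent.Jac.GeomAlgClosed32.isIntegral_pullback_of_isAlgClosed X.c (prodHom l)
    have hs1 : Surjective (prodHom l) := surjective_to_spec_field _
    have hs2 : Surjective X.c := surjective_to_spec_field _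
    have hd1 : IsDominant (pullback.fst X.c (prodHom l)) := inferInstance
    have hd2 : IsDominant (pullback.snd X.c (prodHom l)) := inferInstance
    obtain ⟨cc⟩ := Fermat.Agent.Jac.FiniteToLine80.nonempty_curveCharts X.c X.ε
    obtain ⟨cb⟩ := nonempty_curveBox X.c cc
    refine ⟨hV, Option σ, inferInstance, by simp [hcard], ⟨?_⟩⟩
    exact GeoBox.step X.c (prodHom l) cb gb

/-- **Brick UPB.**  On a product of `N` pointed smooth proper curves over an algebraically
closed field, `h⁰(m D) ≤ C m ^ N` for every effective Cartier divisor `D`; more precisely every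
`K`-subspace `W` of the function field contained in `H⁰(m D)` is finite-dimensional of dimension
`≤ C m ^ N`. -/
theorem exists_finrank_le_prodObj (l : List (CurveTo f e)) [IsIntegral (prodObj l)]
    {D : CaDiv (prodObj l)} (hD : D.IsEffective) :
    letI := ffAlgebra (prodHom l)
    ∃ C : ℕ, ∀ (m : ℕ) (W : Submodule K (prodObj l).functionField), 1 ≤ m →
      (∀ g ∈ W, g ∈ (D ^ m).H0) →
      Module.Finite K W ∧ finrank K W ≤ C * m ^ l.length := by
  obtain ⟨_, σ, hσ, hcard, ⟨gb⟩⟩ := exists_geoBox_prodObj l
  have := gb.exists_finrank_le hD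
  rwa [hcard] at this

end Fermat.Agent.AV.Upb43
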