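/-
Fermat/Agent/AV/Upb43/Consumer.lean  (helper43)

Programme AV (S26/S27), brick UPB, consumer forms: the bound `h⁰(m D) ≤ C m ^ N` on any integral
`K`-scheme `A'` dominated by a product of `N` pointed curves, with a free choice of the `K`-algebra
structures on the function fields.
-/
import Mathlib
import Fermat.Agent.AV.Upb43.Main

set_option autoImplicit false

universe u

open CategoryTheory CategoryTheory.Limits AlgebraicGeometry Module NeronModelInfra

namespace Fermat.Agent.AV.Upb43

open Fermat.Agent.AV.PicDiv86 Fermat.Agent.AV.Curv33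

variable {K : Type u} [Field K] [IsAlgClosed K] {A : Scheme.{u}}
  {f : A ⟶ Spec (CommRingCat.of K)} {e : SchemeHomOver (𝟙 (Spec (CommRingCat.of K))) f}

/-- `exists_finrank_le_prodObj` for any `K`-algebra structure on the function field of the
product whose structure map is the canonical one. -/
theorem exists_finrank_le_prodObj' (l : List (CurveTo f e)) [IsIntegral (prodObj l)]
    [inst : Algebra K (prodObj l).functionField]
    (hV : ∀ a, algebraMap K (prodObj l).functionField a = kToFF (prodHom l) a)
    {D : CaDiv (prodObj l)} (hD : D.IsEffective) :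
    ∃ C : ℕ, ∀ (m : ℕ) (W : Submodule K (prodObj l).functionField), 1 ≤ m →
      (∀ g ∈ W, g ∈ (D ^ m).H0) →
      Module.Finite K W ∧ finrank K W ≤ C * m ^ l.length := by
  have : inst = ffAlgebra (prodHom l) := Algebra.algebra_ext _ _ hV
  subst this
  exact exists_finrank_le_prodObj l hD

/-- **Brick UPB, consumer form.**  If a product of `N` pointed curves dominates the integral
scheme `A'` (compatibly with the `K`-structures), then `h⁰(A', m D) ≤ C m ^ N` for every
effective Cartier divisor `D` on `A'`. -/
theorem exists_finrank_le_of_dominant (l : List (CurveTo f e)) [IsIntegral (prodObj l)]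
    {A' : Scheme.{u}} [IsIntegral A'] (φ : prodObj l ⟶ A') [IsDominant φ]
    [Algebra K A'.functionField] [Algebra K (prodObj l).functionField]
    (hV : ∀ a, algebraMap K (prodObj l).functionField a = kToFF (prodHom l) a)
    (hφ : ∀ a, functionFieldMap φ (algebraMap K A'.functionField a) =
      algebraMap K (prodObj l).functionField a)
    {D : CaDiv A'} (hD : D.IsEffective) :
    ∃ C : ℕ, ∀ (m : ℕ) (W : Submodule K A'.functionField), 1 ≤ m →
      (∀ g ∈ W, g ∈ (D ^ m).H0) →
      Module.Finite K W ∧ finrank K W ≤ C * m ^ l.length := by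
  obtain ⟨C, hC⟩ := exists_finrank_le_prodObj' l hV (hD.pullback (φ := φ))
  refine ⟨C, fun m W hm hW => ?_⟩
  let ψ : A'.functionField →ₗ[K] (prodObj l).functionField :=
    { toFun := functionFieldMap φ
      map_add' := map_add _
      map_smul' := fun a g => by
        simp only [Algebra.smul_def, map_mul, hφ, RingHom.id_apply] }
  have hψ : Function.Injective ψ := functionFieldMap_injective φ
  obtain ⟨h1, h2⟩ := hC m (W.map ψ) hm (by
    rintro _ ⟨g, hg, rfl⟩
    have := CaDiv.map_mem_H0 φ (hW g hg)
    rwa [map_pow] at this)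
  let e' : W ≃ₗ[K] W.map ψ := Submodule.equivMapOfInjective ψ hψ W
  exact ⟨Module.Finite.equiv e'.symm, by rw [e'.finrank_eq]; exact h2⟩

/-- Consumer form over `K`: `A'` with structure map `a'`, `φ ≫ a' = prodHom l`, and the
canonical `K`-algebra structure `ffAlgebra a'` on `K(A')`. -/
theorem exists_finrank_le_of_dominant_over (l : List (CurveTo f e)) [IsIntegral (prodObj l)]
    {A' : Scheme.{u}} [IsIntegral A'] (a' : A' ⟶ Spec (CommRingCat.of K))
    (φ : prodObj l ⟶ A') [IsDominant φ] (hφ : φ ≫ a' = prodHom l)
    {D : CaDiv A'} (hD : D.IsEffective) :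
    letI := ffAlgebra a'
    ∃ C : ℕ, ∀ (m : ℕ) (W : Submodule K A'.functionField), 1 ≤ m →
      (∀ g ∈ W, g ∈ (D ^ m).H0) →
      Module.Finite K W ∧ finrank K W ≤ C * m ^ l.length := by
  letI := ffAlgebra a'
  letI := ffAlgebra (prodHom l)
  refine exists_finrank_le_of_dominant l φ (fun _ => rfl) (fun a => ?_) hD
  have := functionFieldMap_kToFF a' φ a
  rw [hφ] at this
  exact this

end Fermat.Agent.AV.Upb43
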