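/-
Fermat/Agent/AV/Upb43/VolAdapter.lean  (helper43)

Programme AV (S26/S27), brick UPB, last adapter: from the output of brick CURV
(`Curv33.CurvStatement G g`: a product of `g` pointed curves dominating `A`) to the two inputs
`hfin`, `hupp` of `Sand86.volumeInput_of_divisor'`.
-/
import Mathlib
import Fermat.Agent.AV.Upb43.Consumer
import Fermat.Agent.AV.Sand86.VolInst

set_option autoImplicit false

universe u

open CategoryTheory CategoryTheory.Limits AlgebraicGeometry Module NeronModelInfra
open GoodReductionJacobian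

namespace Fermat.Agent.AV.Upb43

open Fermat.Agent.AV.PicDiv86 Fermat.Agent.AV.Curv33 Fermat.Agent.AV

variable {K : Type u} [Field K] {A : Scheme.{u}} {f : A ⟶ Spec (CommRingCat.of K)}

/-- The two descriptions of the structure map `K → K(A)` agree. -/
theorem structK_eq_kToFF [IsIntegral A] (r : K) : Sand86.structK f r = kToFF f r := rfl

variable [IsAlgClosed K] (G : RelativeGroupLaw K f)

/-- **UPB for VOLINST.**  If a product of `g` pointed curves dominates `A` (output of CURV), then
for every effective Cartier divisor `D` on `A` the spaces `H⁰(A, m D)` are finite-dimensional of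
dimension `≤ C m ^ g`. -/
theorem hfin_hupp_of_curvStatement (g : ℕ) (hcurv : CurvStatement G g) [IsIntegral A]
    [Algebra K A.functionField]
    (halg : ∀ r : K, algebraMap K A.functionField r = Sand86.structK f r)
    {D : CaDiv A} (hD : D.IsEffective) :
    (∀ m, Module.Finite K
      (CaDiv.H0Submodule K (Sand86.algebraMap_mem_regularOn f halg) (D ^ m))) ∧
    ∃ (C : ℝ) (m₀ : ℕ), ∀ m : ℕ, m₀ ≤ m →
      ((finrank K (CaDiv.H0Submodule K (Sand86.algebraMap_mem_regularOn f halg) (D ^ m)) : ℕ) :
        ℝ) ≤ C * (m : ℝ) ^ g := by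
  obtain ⟨l, hl, hdom⟩ := hcurv
  haveI := isIntegral_prodObj l
  letI := ffAlgebra (prodHom l)
  obtain ⟨C, hC⟩ := exists_finrank_le_of_dominant l (sumMap G l) (fun _ => rfl)
    (fun a => by
      rw [halg, structK_eq_kToFF]
      have := functionFieldMap_kToFF f (sumMap G l) a
      rw [sumMap_f] at this
      exact this) hD
  have h1 : ∀ m, 1 ≤ m → Module.Finite K
      (CaDiv.H0Submodule K (Sand86.algebraMap_mem_regularOn f halg) (D ^ m)) :=
    fun m hm => (hC m (CaDiv.H0Submodule K (Sand86.algebraMap_mem_regularOn f halg) (D ^ m)) hm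
      (fun _ hg => CaDiv.mem_H0Submodule.1 hg)).1
  refine ⟨fun m => ?_, (C : ℝ), 1, fun m hm => ?_⟩
  · rcases Nat.eq_zero_or_pos m with rfl | hm
    · haveI := h1 1 le_rfl
      have hle : CaDiv.H0Submodule K (Sand86.algebraMap_mem_regularOn f halg) (D ^ 0) ≤
          CaDiv.H0Submodule K (Sand86.algebraMap_mem_regularOn f halg) (D ^ 1) :=
        fun _ hg => CaDiv.H0_pow_mono hD (Nat.zero_le 1) hg
      exact Module.Finite.of_injective (Submodule.inclusion hle)
        (Submodule.inclusion_injective hle)
    · exact h1 m hm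
  · have := (hC m (CaDiv.H0Submodule K (Sand86.algebraMap_mem_regularOn f halg) (D ^ m)) hm
      (fun _ hg => CaDiv.mem_H0Submodule.1 hg)).2
    rw [hl] at this
    exact_mod_cast this

end Fermat.Agent.AV.Upb43
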