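/-
Fermat/Agent/AV/Upb43/BoxFinite.lean  (helper43)

Programme AV (S26/S27): algebraic box data make the field `F` finite over `K(T)`; for products of
curves this gives GENFIN (A1) without any smoothness argument.
-/
import Mathlib
import Fermat.Agent.AV.Upb43.AlgBox

set_option autoImplicit false

open Module

namespace Fermat.Agent.AV.Upb43

variable {K : Type*} {F : Type*} [Field K] [Field F] [Algebra K F] {σ : Type*}

/-- Box data make `F` finite over the subfield `K(T)` generated by the coordinates. -/
theorem AlgBox.finiteDimensional_adjoin (bx : AlgBox K F σ) :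
    FiniteDimensional (IntermediateField.adjoin K (Set.range bx.T)) F := by
  classical
  set L := IntermediateField.adjoin K (Set.range bx.T) with hL
  set S : Submodule L F := Submodule.span L (bx.S0 : Set F) with hS
  have hAL : ∀ a ∈ Algebra.adjoin K (Set.range bx.T), a ∈ L :=
    fun a ha => IntermediateField.algebra_adjoin_le_adjoin K _ ha
  have h1 : ∀ f ∈ bx.R0, f ∈ S := by
    intro f hf
    have := bx.span0 f hf
    clear hf
    induction this using Submodule.span_induction with
    | mem x hx => exact Submodule.subset_span hx
    | zero => exact S.zero_mem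
    | add x y _ _ hx hy => exact S.add_mem hx hy
    | smul a x _ hx =>
      have : a • x = (⟨a, hAL a a.2⟩ : L) • x := rfl
      rw [this]
      exact S.smul_mem _ hx
  have h2 : ∀ b ∈ bx.R0, ∀ x ∈ S, b * x ∈ S := by
    intro b hb x hx
    induction hx using Submodule.span_induction with
    | mem x hx => exact h1 _ (bx.R0.mul_mem hb (bx.S0_mem x hx))
    | zero => simp
    | add x y _ _ hx hy => rw [mul_add]; exact S.add_mem hx hy
    | smul e x _ hx => rw [mul_smul_comm]; exact S.smul_mem e hx
  have hfin : FiniteDimensional L S := FiniteDimensional.span_finset L bx.S0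
  have h3 : S = ⊤ := by
    rw [eq_top_iff]
    intro z _
    obtain ⟨a, ha, b, hb, hb0, hz⟩ := bx.frac0 z
    let μ : S →ₗ[L] S := (LinearMap.mulLeft L b).restrict (fun x hx => h2 b hb x hx)
    have hμinj : Function.Injective μ := by
      intro x y hxy
      have : b * (x : F) = b * (y : F) := congrArg Subtype.val hxy
      exact Subtype.ext (mul_left_cancel₀ hb0 this)
    obtain ⟨s, hs⟩ := (LinearMap.injective_iff_surjective.1 hμinj) ⟨a, h1 a ha⟩
    have hs' : b * (s : F) = a := congrArg Subtype.val hs
    have : z = s := by
      apply mul_right_cancel₀ hb0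
      rw [hz, ← hs', mul_comm]
    rw [this]
    exact s.2
  exact Module.finite_def.2 (h3 ▸ Submodule.fg_span bx.S0.finite_toSet)

/-- `Fin`-indexed form: `F` is finite over a subfield generated over `K` by `card σ` elements. -/
theorem AlgBox.exists_finiteDimensional_adjoin [Fintype σ] (bx : AlgBox K F σ) {d : ℕ}
    (hd : Fintype.card σ = d) :
    ∃ t : Fin d → F, FiniteDimensional (IntermediateField.adjoin K (Set.range t)) F := by
  subst hd
  refine ⟨bx.T ∘ (Fintype.equivFin σ).symm, ?_⟩
  have : Set.range (bx.T ∘ (Fintype.equivFin σ).symm) = Set.range bx.T :=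
    (Fintype.equivFin σ).symm.surjective.range_comp _
  rw [this]
  exact bx.finiteDimensional_adjoin

end Fermat.Agent.AV.Upb43
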